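/-
PROJECT R (S43), block RB (the residual representation of the Frey curve), brick `Rbar/TWHyp`:
PURE ALGEBRA.  The Taylor-Wiles hypothesis of S56 (`hTW`: irreducible on every subgroup of index 2,
over every extension of the coefficient field) for a two-dimensional residual representation that is
irreducible after every base change and whose image contains a NON-TRIVIAL UNIPOTENT element
(characteristic `≠ 2`).  For the Frey curve the unipotent element is a generator of tame inertia
at `2` (Tate curve).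

Proof: a subgroup `G` of index two is normal and contains `τ * τ`; `ρ(τ * τ) - 1 = 2 N` with
`N = ρ(τ) - 1`, `N² = 0`, `N ≠ 0`; every non-zero `G`-stable subspace contains the line `im N`
(over any `K`), so it contains all the translates of that line, which span everything.
-/
import Mathlib
import Fermat.Prelude.Def_GaloisRep_Residual

set_option autoImplicit false

open scoped TensorProduct

namespace Fermat.Agent.S43.Rbar.TWHyp

local notation "Γ" => AlgebraicClosure ℚ ≃ₐ[ℚ] AlgebraicClosure ℚ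

variable {k : Type} [Field k]

/-- The literal of the hypothesis `hTW` of `Fermat.Agent.S56.result` (for a general coefficient
field `k`). -/
def Holds (ρ : ResidualGaloisRep k) : Prop :=
  ∀ (K : Type) [Field K] [Algebra k K] (G : Subgroup Γ), G.index = 2 →
    ∀ V : Submodule K (ρ.baseChange K).V,
      (∀ σ ∈ G, ∀ x ∈ V, (ρ.baseChange K).ρ σ x ∈ V) → V = ⊥ ∨ V = ⊤

/-- **Irreducible over every extension + a non-trivial unipotent in the image ⇒ `hTW`.** -/
theorem holds_of_unipotent (ρ : ResidualGaloisRep k) (h2 : (2 : k) ≠ 0)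
    (hirr : ∀ (K : Type) [Field K] [Algebra k K], (ρ.baseChange K).IsIrreducible)
    (τ : Γ) (hτ1 : ρ.ρ τ ≠ 1) (hτ : (ρ.ρ τ - 1) * (ρ.ρ τ - 1) = 0) : Holds ρ := by
  classical
  intro K _ _ G hG W hW
  -- the nilpotent `N`
  set N : Module.End k ρ.V := ρ.ρ τ - 1 with hN
  have hN0 : N ≠ 0 := fun h => hτ1 (sub_eq_zero.mp h)
  obtain ⟨e₂, he₂⟩ : ∃ e₂, N e₂ ≠ 0 := by
    by_contra h
    push Not at h
    exact hN0 (LinearMap.ext fun v => by rw [h v]; rfl)
  set e₁ : ρ.V := N e₂ with he₁
  have hNe₁ : N e₁ = 0 := by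
    have := congrArg (fun f : Module.End k ρ.V => f e₂) hτ
    simpa [he₁] using this
  have hli : LinearIndependent k ![e₁, e₂] := by
    rw [LinearIndependent.pair_iff]
    intro a b hab
    have hb : b = 0 := by
      have := congrArg N hab
      rw [map_add, map_smul, map_smul, hNe₁, smul_zero, zero_add, map_zero] at this
      exact (smul_eq_zero.mp this).resolve_right he₂
    rw [hb, zero_smul, add_zero] at hab
    exact ⟨(smul_eq_zero.mp hab).resolve_right he₂, hb⟩
  have hcard : Fintype.card (Fin 2) = Module.finrank k ρ.V := by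
    rw [ρ.finrank_eq, Fintype.card_fin]
  let b : Module.Basis (Fin 2) k ρ.V := basisOfLinearIndependentOfCardEqFinrank hli hcard
  have hb0 : b 0 = e₁ := by
    simp [b, coe_basisOfLinearIndependentOfCardEqFinrank]
  have hb1 : b 1 = e₂ := by
    simp [b, coe_basisOfLinearIndependentOfCardEqFinrank]
  let B : Module.Basis (Fin 2) K (K ⊗[k] ρ.V) := Algebra.TensorProduct.basis K b
  have hB0 : B 0 = 1 ⊗ₜ[k] e₁ := by rw [← hb0]; exact Algebra.TensorProduct.basis_apply b 0
  have hB1 : B 1 = 1 ⊗ₜ[k] e₂ := by rw [← hb1]; exact Algebra.TensorProduct.basis_apply b 1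
  have h2K : (2 : K) ≠ 0 := by
    intro h
    apply h2
    apply (algebraMap k K).injective
    rw [map_ofNat, map_zero]; exact h
  have hnormal : G.Normal := Subgroup.normal_of_index_eq_two hG
  have hττ : τ * τ ∈ G := Subgroup.mul_self_mem_of_index_two hG τ
  -- the action on pure tensors
  have hact : ∀ (σ : Γ) (e : ρ.V), (ρ.baseChange K).ρ σ (1 ⊗ₜ[k] e) = 1 ⊗ₜ[k] (ρ.ρ σ e) := by
    intro σ e
    show (ρ.ρ σ).baseChange K (1 ⊗ₜ[k] e) = _
    rw [LinearMap.baseChange_tmul]
  -- `ρ(τ τ) = 1 + 2 N`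
  have hρτ : ρ.ρ τ = 1 + N := by rw [hN]; abel
  have hsq : ∀ e : ρ.V, ρ.ρ (τ * τ) e = e + (2 : k) • N e := by
    intro e
    have hNN : N (N e) = 0 := by
      have := congrArg (fun f : Module.End k ρ.V => f e) hτ
      simpa using this
    rw [map_mul, hρτ]
    simp only [Module.End.mul_apply, LinearMap.add_apply, Module.End.one_apply, map_add, hNN,
      add_zero, two_smul]
    abel
  -- every non-zero `G`-stable subspace contains `1 ⊗ e₁`
  have hkey : ∀ W' : Submodule K (ρ.baseChange K).V,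
      (∀ σ ∈ G, ∀ x ∈ W', (ρ.baseChange K).ρ σ x ∈ W') → W' ≠ ⊥ → (1 : K) ⊗ₜ[k] e₁ ∈ W' := by
    intro W' hW' hbot
    obtain ⟨w, hwW, hw0⟩ := (Submodule.ne_bot_iff W').mp hbot
    obtain ⟨a, c, hrepr⟩ : ∃ a c : K, w = a • ((1 : K) ⊗ₜ[k] e₁) + c • ((1 : K) ⊗ₜ[k] e₂) := by
      refine ⟨B.repr w 0, B.repr w 1, ?_⟩
      conv_lhs => rw [← B.sum_repr w]
      rw [Fin.sum_univ_two, hB0, hB1]
    by_cases hc : c = 0
    · have ha : a ≠ 0 := by
        intro ha
        apply hw0
        rw [hrepr, ha, hc, zero_smul, zero_smul, add_zero]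
      have h := hwW
      rw [hrepr, hc, zero_smul, add_zero] at h
      have h4 := W'.smul_mem a⁻¹ h
      rwa [smul_smul, inv_mul_cancel₀ ha, one_smul] at h4
    · have h1 : (ρ.baseChange K).ρ (τ * τ) w ∈ W' := hW' _ hττ w hwW
      have h3 : (ρ.baseChange K).ρ (τ * τ) w =
          w + (2 * c) • ((1 : K) ⊗ₜ[k] e₁) := by
        have hsm : c • ((2 : k) • ((1 : K) ⊗ₜ[k] e₁)) = (2 * c) • ((1 : K) ⊗ₜ[k] e₁) := by
          rw [← algebraMap_smul K (2 : k), smul_smul, map_ofNat, mul_comm]
        rw [hrepr, map_add, map_smul, map_smul, hact, hact, hsq, hsq, hNe₁, smul_zero, add_zero,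
          ← he₁, TensorProduct.tmul_add, TensorProduct.tmul_smul, smul_add, hsm]
        abel
      have h5 : (2 * c) • ((1 : K) ⊗ₜ[k] e₁) ∈ W' := by
        have := W'.sub_mem h1 hwW
        rwa [h3, add_sub_cancel_left] at this
      have hne : 2 * c ≠ 0 := mul_ne_zero h2K hc
      have h4 := W'.smul_mem (2 * c)⁻¹ h5
      rwa [smul_smul, inv_mul_cancel₀ hne, one_smul] at h4
  by_cases hbot : W = ⊥
  · exact Or.inl hbot
  right
  -- all translates of `1 ⊗ e₁` lie in `W`
  have hall : ∀ g : Γ, (ρ.baseChange K).ρ g ((1 : K) ⊗ₜ[k] e₁) ∈ W := by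
    intro g
    have hinv : ∀ x, (ρ.baseChange K).ρ g ((ρ.baseChange K).ρ g⁻¹ x) = x := by
      intro x
      rw [← Module.End.mul_apply, ← map_mul, mul_inv_cancel, map_one, Module.End.one_apply]
    have hstable : ∀ σ ∈ G, ∀ x ∈ W.comap ((ρ.baseChange K).ρ g),
        (ρ.baseChange K).ρ σ x ∈ W.comap ((ρ.baseChange K).ρ g) := by
      intro σ hσ x hx
      rw [Submodule.mem_comap] at hx ⊢
      have hconj : g * σ * g⁻¹ ∈ G := hnormal.conj_mem σ hσ g
      have := hW _ hconj _ hx
      rwa [← Module.End.mul_apply, ← map_mul, inv_mul_cancel_right, map_mul,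
        Module.End.mul_apply] at this
    have hne : W.comap ((ρ.baseChange K).ρ g) ≠ ⊥ := by
      obtain ⟨w, hwW, hw0⟩ := (Submodule.ne_bot_iff W).mp hbot
      rw [Submodule.ne_bot_iff]
      refine ⟨(ρ.baseChange K).ρ g⁻¹ w, ?_, ?_⟩
      · rw [Submodule.mem_comap, hinv]; exact hwW
      · intro h
        apply hw0
        rw [← hinv w, h, map_zero]
    exact hkey _ hstable hne
  -- their span is stable under everything, hence everything
  let W₀ : Submodule K (ρ.baseChange K).V :=
    Submodule.span K (Set.range fun g : Γ => (ρ.baseChange K).ρ g ((1 : K) ⊗ₜ[k] e₁))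
  have hW₀W : W₀ ≤ W := by
    refine Submodule.span_le.mpr ?_
    rintro _ ⟨g, rfl⟩
    exact hall g
  have hW₀st : ∀ σ : Γ, ∀ x ∈ W₀, (ρ.baseChange K).ρ σ x ∈ W₀ := by
    intro σ x hx
    refine Submodule.span_induction (p := fun x _ => (ρ.baseChange K).ρ σ x ∈ W₀)
      ?_ ?_ ?_ ?_ hx
    · rintro _ ⟨g, rfl⟩
      refine Submodule.subset_span ⟨σ * g, ?_⟩
      show (ρ.baseChange K).ρ (σ * g) _ = _
      rw [map_mul, Module.End.mul_apply]
    · rw [map_zero]; exact Submodule.zero_mem _
    · intro x y _ _ hx hy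
      rw [map_add]; exact Submodule.add_mem _ hx hy
    · intro a x _ hx
      rw [map_smul]; exact Submodule.smul_mem _ _ hx
  have hW₀ne : W₀ ≠ ⊥ := by
    intro h
    have hmem : (1 : K) ⊗ₜ[k] e₁ ∈ W₀ := by
      refine Submodule.subset_span ⟨1, ?_⟩
      show (ρ.baseChange K).ρ 1 _ = _
      rw [map_one, Module.End.one_apply]
    rw [h, Submodule.mem_bot] at hmem
    have : B 0 = 0 := by rw [hB0]; exact hmem
    exact B.ne_zero 0 this
  rcases hirr K W₀ hW₀st with h | h
  · exact absurd h hW₀ne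
  · exact top_le_iff.mp (h ▸ hW₀W)

end Fermat.Agent.S43.Rbar.TWHyp
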