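/-
PROJECT R (S43), block RB (leader helper27): THE SEAM OF THE BLOCK (definitions only).

What RB EXPORTS about the residual representation of the Frey curve, as one literal.

`P : FreyPackage`, `k` a field of characteristic `p = P.p`, `rbar : ResidualGaloisRep k`.
`IsFreyResidual P rbar` collects everything the other blocks consume:

* `habs`, `hdet`, `hsplit`, `hTW` : the four hypotheses of main's `S56.result` (Taylor–Wiles primes),
  in their literal shapes (`hTW` is `Rbar/TWHyp.Holds`);
* `hunr`, `hram2`, `hunip2` : `rbar` is unramified outside `{2, p}`, ramified at `2`, and inertia at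
  `2` acts unipotently (so `Smin = {2, p}` in `S56.result`, `hmin` is `hmin_of`);
* `hfrob` : for EVERY integral model `W` of the Frey curve, every prime `ℓ ≠ p` good for `W` and
  every Frobenius element `σ` at `ℓ`, `charpoly (rbar σ) = X² - a_ℓ(W) X + ℓ` (what L1 matches with
  `P.ModularRepOfLevel N` by Chebotarev + Brauer–Nesbitt).

Flatness at `p` is NOT exported by RB: after S44 the level is prime to `p`, and main's S32 gives it on
the Hecke side.

The producer is `Rbar/Export.lean`; `QuadSplit p k` is the hypothesis on the coefficient field.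
-/
import Mathlib
import Fermat.Prelude.Def_GaloisRep_Residual
import Fermat.Prelude.Def_GaloisRep_LocalConditions
import Fermat.Prelude.Def_FLTPrelim_FreyPackage
import Fermat.Agent.S43.Rbar.TWHyp

set_option autoImplicit false

noncomputable section

namespace Fermat.Agent.S43.Rbar.Seam

open Polynomial

local notation "Qbar" => AlgebraicClosure ℚ
local notation "GQ" => (AlgebraicClosure ℚ ≃ₐ[ℚ] AlgebraicClosure ℚ)

/-- **(hypothesis on the coefficient field)** every monic quadratic polynomial with coefficients in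
`𝔽_p` splits in `k`. -/
def QuadSplit (p : ℕ) (k : Type) [Field k] [Algebra (ZMod p) k] : Prop :=
  ∀ t d : ZMod p, ∃ α β : k,
    (X ^ 2 - C (algebraMap (ZMod p) k t) * X + C (algebraMap (ZMod p) k d) : k[X]) =
      (X - C α) * (X - C β)

/-- **(EXPORT of RB)** `rbar` is (a scalar extension of) the mod `p` representation of the Frey
curve of `P`, with everything the blocks NUM, RS, L1, PATCH consume. -/
structure IsFreyResidual (P : FreyPackage) {k : Type} [Field k] (rbar : ResidualGaloisRep k) :
    Prop where
  /-- `rbar` is absolutely irreducible -/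
  habs : rbar.IsAbsolutelyIrreducible
  /-- `det rbar` is the mod `p` cyclotomic character (Prelude's literal; it contains `(p : k) = 0`) -/
  hdet : (GaloisRepAdic.ofResidualGaloisRep rbar).DetIsCyclotomic P.p
  /-- the eigenvalues of every `rbar σ` lie in `k` -/
  hsplit : ∀ σ : GQ, ∃ α β : k, LinearMap.charpoly (rbar.ρ σ) = (X - C α) * (X - C β)
  /-- irreducible on every subgroup of index `2`, over every extension of `k` -/
  hTW : Fermat.Agent.S43.Rbar.TWHyp.Holds rbar
  /-- unramified outside `{2, p}` -/
  hunr : ∀ q : ℕ, q.Prime → q ≠ 2 → q ≠ P.p → rbar.IsUnramifiedAt q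
  /-- ramified at `2` -/
  hram2 : ¬ rbar.IsUnramifiedAt 2
  /-- inertia at `2` acts unipotently -/
  hunip2 : ∀ A : ValuationSubring Qbar, A.LiesOverPrime 2 → ∀ σ ∈ A.inertiaSubgroupIn ℚ,
    (rbar.ρ σ - 1) * (rbar.ρ σ - 1) = 0
  /-- the characteristic polynomial of Frobenius at the good primes of any integral model -/
  hfrob : ∀ W : WeierstrassCurve ℤ, W.IsIntegralModelOf P.freyCurve →
    ∀ ℓ : ℕ, ℓ.Prime → W.IsGoodPrimeFor ℓ → ℓ ≠ P.p →
      ∀ A : ValuationSubring Qbar, A.LiesOverPrime ℓ → ∀ σ : GQ, A.IsFrobeniusAt σ ℓ →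
        LinearMap.charpoly (rbar.ρ σ) =
          X ^ 2 - C (((W.apOfModel ℓ : ℤ) : k)) * X + C ((ℓ : k))

/-- `rbar|D_A` is scalar at every place `A` over `ℓ` (the stuck primes; consumed by NUM and LOC). -/
def ScalarOnDecomposition {k : Type} [Field k] (rbar : ResidualGaloisRep k) (ℓ : ℕ) : Prop :=
  ∀ A : ValuationSubring Qbar, A.LiesOverPrime ℓ → ∀ σ ∈ A.decompositionSubgroup ℚ,
    ∃ e : k, rbar.ρ σ = e • (1 : Module.End k rbar.V)

/-- some Frobenius element at `ℓ` acts as a scalar. -/
def FrobScalar {k : Type} [Field k] (rbar : ResidualGaloisRep k) (ℓ : ℕ) : Prop :=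
  ∃ (A : ValuationSubring Qbar) (σ : GQ), A.LiesOverPrime ℓ ∧ A.IsFrobeniusAt σ ℓ ∧
    ∃ e : k, rbar.ρ σ = e • (1 : Module.End k rbar.V)

/-- The literal `hmin` of `S56.result` with `Smin = {2, p}`. -/
theorem hmin_of (P : FreyPackage) {k : Type} [Field k] {rbar : ResidualGaloisRep k}
    (h : IsFreyResidual P rbar) (q : ℕ) (hq : q.Prime) (hqp : q ≠ P.p) :
    q ∈ ({2, P.p} : Finset ℕ) ↔ ¬ rbar.IsUnramifiedAt q := by
  constructor
  · intro hmem
    rw [Finset.mem_insert, Finset.mem_singleton] at hmem
    rcases hmem with rfl | rfl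
    · exact h.hram2
    · exact absurd rfl hqp
  · intro hram
    by_contra hmem
    rw [Finset.mem_insert, Finset.mem_singleton, not_or] at hmem
    exact hram (h.hunr q hq hmem.1 hmem.2)

end Fermat.Agent.S43.Rbar.Seam
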