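/-
PROJECT R (S43), block RB (leader helper27): THE EXPORTS OF `Rbar/Seam.IsFreyResidual` IN THE
LITERAL SHAPES OF THE CONSUMERS (helper21's list #6121 (E)).

* `charpoly_of_sub_one_sq` : in rank two, `(f - 1)² = 0` gives `charpoly f = (X - 1)²`;
* `isUnipotentOnInertiaAt_two` : the Prelude's `IsUnipotentOnInertiaAt 2` for
  `ofResidualGaloisRep rbar`;
* `isUnramifiedAt_ofResidual` : the Prelude's `GaloisRepAdic.IsUnramifiedAt` for
  `ofResidualGaloisRep rbar` outside `{2, p}`;
* `scalarAt_matrix` : NUM's `Num/Seam.ScalarAt` literal (matrix form, fixed places `Dq ℓ`) from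
  `Seam.ScalarOnDecomposition`.
-/
import Fermat.Agent.S43.Rbar.Seam
import Fermat.Agent.S56.Coh.Defs

set_option autoImplicit false
set_option linter.unusedSectionVars false

noncomputable section

namespace Fermat.Agent.S43.Rbar.Lits

open Polynomial
open Fermat.Agent.S43.Rbar.Seam Fermat.Agent.S56.Coh Fermat.Agent.CFT.LocalBridge

local notation "Qbar" => AlgebraicClosure ℚ
local notation "GQ" => (AlgebraicClosure ℚ ≃ₐ[ℚ] AlgebraicClosure ℚ)

/-- a `2 × 2` matrix with `(M - 1)² = 0` has trace `2` and determinant `1`. -/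
theorem trace_det_of_sub_one_sq {K : Type*} [Field K] (M : Matrix (Fin 2) (Fin 2) K)
    (h : (M - 1) * (M - 1) = 0) : M.trace = 2 ∧ M.det = 1 := by
  have h00 := congrFun (congrFun h 0) 0
  have h01 := congrFun (congrFun h 0) 1
  have h10 := congrFun (congrFun h 1) 0
  have h11 := congrFun (congrFun h 1) 1
  simp only [Matrix.mul_apply, Fin.sum_univ_two, Matrix.sub_apply, Matrix.one_apply_eq,
    Matrix.one_apply_ne, ne_eq, Fin.zero_eq_one_iff, Fin.one_eq_zero_iff, OfNat.ofNat_ne_one,
    not_false_eq_true, sub_zero, Matrix.zero_apply] at h00 h01 h10 h11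
  rw [Matrix.trace_fin_two, Matrix.det_fin_two]
  have htr : M 0 0 + M 1 1 = 2 := by
    by_contra hne
    have hne' : M 0 0 + M 1 1 - 2 ≠ 0 := sub_ne_zero.mpr hne
    have hb : M 0 1 = 0 := by
      have : M 0 1 * (M 0 0 + M 1 1 - 2) = 0 := by linear_combination h01
      exact (mul_eq_zero.mp this).resolve_right hne'
    have hc : M 1 0 = 0 := by
      have : M 1 0 * (M 0 0 + M 1 1 - 2) = 0 := by linear_combination h10
      exact (mul_eq_zero.mp this).resolve_right hne'
    have ha : M 0 0 = 1 := by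
      have : (M 0 0 - 1) * (M 0 0 - 1) = 0 := by rw [hb] at h00; linear_combination h00
      exact sub_eq_zero.mp (mul_self_eq_zero.mp this)
    have hd : M 1 1 = 1 := by
      have : (M 1 1 - 1) * (M 1 1 - 1) = 0 := by rw [hb] at h11; linear_combination h11
      exact sub_eq_zero.mp (mul_self_eq_zero.mp this)
    apply hne
    rw [ha, hd]
    norm_num
  refine ⟨htr, ?_⟩
  linear_combination -h00 + M 0 0 * htr

/-- in rank two, `(f - 1)² = 0` gives `charpoly f = (X - 1)²`. -/
theorem charpoly_of_sub_one_sq {K : Type*} [Field K] {V : Type*} [AddCommGroup V] [Module K V]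
    [Module.Finite K V] (h2 : Module.finrank K V = 2) (f : Module.End K V)
    (h : (f - 1) * (f - 1) = 0) : LinearMap.charpoly f = (X - 1) ^ 2 := by
  let b : Module.Basis (Fin 2) K V := Module.finBasisOfFinrankEq K V h2
  have hM : (LinearMap.toMatrix b b f - 1) * (LinearMap.toMatrix b b f - 1) = 0 := by
    have h1 := congrArg (LinearMap.toMatrix b b) h
    rw [Module.End.mul_eq_comp, LinearMap.toMatrix_comp b b b, map_sub, map_zero] at h1
    have hone : LinearMap.toMatrix b b (1 : Module.End K V) = 1 := by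
      rw [Module.End.one_eq_id, LinearMap.toMatrix_id]
    rwa [hone] at h1
  obtain ⟨htr, hdet⟩ := trace_det_of_sub_one_sq _ hM
  rw [← LinearMap.charpoly_toMatrix f b, Matrix.charpoly_fin_two, htr, hdet]
  simp only [map_ofNat, map_one]
  ring

variable (P : FreyPackage) {k : Type} [Field k] {rbar : ResidualGaloisRep k}

/-- the Prelude's literal: inertia at `2` is unipotent. -/
theorem isUnipotentOnInertiaAt_two (h : IsFreyResidual P rbar) :
    (GaloisRepAdic.ofResidualGaloisRep rbar).IsUnipotentOnInertiaAt 2 := by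
  intro A hA σ hσ
  exact charpoly_of_sub_one_sq rbar.finrank_eq (rbar.ρ σ) (h.hunip2 A hA σ hσ)

/-- the Prelude's literal: unramified outside `{2, p}`. -/
theorem isUnramifiedAt_ofResidual (h : IsFreyResidual P rbar) {q : ℕ} (hq : q.Prime)
    (hq2 : q ≠ 2) (hqp : q ≠ P.p) :
    (GaloisRepAdic.ofResidualGaloisRep rbar).IsUnramifiedAt q :=
  fun A hA σ hσ => h.hunr q hq hq2 hqp A hA σ hσ

/-- NUM's literal `Num/Seam.ScalarAt rbarM T` for a matrix form `rbarM` of `rbar`. -/
theorem scalarAt_matrix (b : Module.Basis (Fin 2) k rbar.V) (rbarM : GQ →* GL (Fin 2) k)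
    (hb : ∀ g, (rbarM g : Matrix (Fin 2) (Fin 2) k) = LinearMap.toMatrix b b (rbar.ρ g))
    (T : Finset ℕ) (hT : ∀ ℓ ∈ T, ScalarOnDecomposition rbar ℓ) :
    ∀ (l : ℕ) [Fact l.Prime], l ∈ T → ∀ s ∈ Dq l, ∃ e : k,
      (rbarM s : Matrix (Fin 2) (Fin 2) k) = e • (1 : Matrix (Fin 2) (Fin 2) k) := by
  intro l _ hl s hs
  obtain ⟨e, he⟩ := hT l hl (padicPlace l) (liesOverPrime_padicPlace l) s hs
  refine ⟨e, ?_⟩
  rw [hb, he, map_smul]
  congr 1
  rw [Module.End.one_eq_id, LinearMap.toMatrix_id]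

end Fermat.Agent.S43.Rbar.Lits
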