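/-
PROJECT R (S43), block RB (the residual representation of the Frey curve), brick `Rbar/AbsIrr`:
PURE ALGEBRA.  A two-dimensional residual representation over a field `k` of characteristic `≠ 2`
which is irreducible over `k` and carries an involution `c` with `det ρ(c) = -1` stays irreducible
after every base change `k → K`; in particular it is absolutely irreducible, and so is every base
change of it.  (Every stable line over `K` is an eigenline of `c`, hence `k`-rational.)
-/
import Mathlib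
import Fermat.Prelude.Def_GaloisRep_Residual

set_option autoImplicit false

open scoped TensorProduct

namespace Fermat.Agent.S43.Rbar.AbsIrr

local notation "Γ" => AlgebraicClosure ℚ ≃ₐ[ℚ] AlgebraicClosure ℚ

section Algebra

variable {k : Type} [Field k] {V : Type} [AddCommGroup V] [Module k V]

/-- An involution of determinant `-1` on a plane (characteristic `≠ 2`) has both eigenvalues. -/
theorem exists_eigenvectors (hV : Module.finrank k V = 2) (h2 : (2 : k) ≠ 0)
    (u : Module.End k V) (hu : u * u = 1) (hdet : LinearMap.det u = -1) :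
    ∃ e₁ e₂ : V, e₁ ≠ 0 ∧ e₂ ≠ 0 ∧ u e₁ = e₁ ∧ u e₂ = -e₂ := by
  have huu : ∀ v, u (u v) = v := fun v => by
    have := congrArg (fun f : Module.End k V => f v) hu
    simpa using this
  have hne1 : u ≠ 1 := by
    rintro rfl
    rw [map_one] at hdet
    apply h2
    linear_combination hdet
  have hneg1 : u ≠ -1 := by
    rintro rfl
    have hm : (-1 : Module.End k V) = (-1 : k) • (1 : Module.End k V) := by
      rw [neg_smul, one_smul]
    rw [hm, LinearMap.det_smul, map_one, hV] at hdet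
    apply h2
    linear_combination hdet
  obtain ⟨v, hv⟩ : ∃ v, u v ≠ v := by
    by_contra h
    push Not at h
    exact hne1 (LinearMap.ext fun v => by rw [h v]; rfl)
  obtain ⟨w, hw⟩ : ∃ w, u w ≠ -w := by
    by_contra h
    push Not at h
    exact hneg1 (LinearMap.ext fun v => by rw [h v]; rfl)
  refine ⟨w + u w, v - u v, ?_, ?_, ?_, ?_⟩
  · intro h
    exact hw (by rw [eq_neg_iff_add_eq_zero, add_comm]; exact h)
  · intro h
    exact hv (sub_eq_zero.mp h).symm
  · rw [map_add, huu, add_comm]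
  · rw [map_sub, huu, neg_sub]

/-- The two eigenvectors form a basis. -/
theorem linearIndependent_eigenvectors (h2 : (2 : k) ≠ 0) (u : Module.End k V) {e₁ e₂ : V}
    (h₁ : e₁ ≠ 0) (h₂ : e₂ ≠ 0) (hu₁ : u e₁ = e₁) (hu₂ : u e₂ = -e₂) :
    LinearIndependent k ![e₁, e₂] := by
  rw [LinearIndependent.pair_iff]
  intro a b hab
  have h' : a • e₁ - b • e₂ = 0 := by
    have := congrArg u hab
    rwa [map_add, map_smul, map_smul, hu₁, hu₂, smul_neg, map_zero, ← sub_eq_add_neg] at this
  have ha : (2 * a) • e₁ = 0 := by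
    have : (2 * a) • e₁ = (a • e₁ + b • e₂) + (a • e₁ - b • e₂) := by
      rw [mul_smul, two_smul]; abel
    rw [this, hab, h', add_zero]
  have hb : (2 * b) • e₂ = 0 := by
    have : (2 * b) • e₂ = (a • e₁ + b • e₂) - (a • e₁ - b • e₂) := by
      rw [mul_smul, two_smul]; abel
    rw [this, hab, h', sub_zero]
  constructor
  · rcases smul_eq_zero.mp ha with h | h
    · exact (mul_eq_zero.mp h).resolve_left h2
    · exact absurd h h₁
  · rcases smul_eq_zero.mp hb with h | h
    · exact (mul_eq_zero.mp h).resolve_left h2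
    · exact absurd h h₂

end Algebra

variable {k : Type} [Field k]

/-- The determinant of `ρ(σ)` is unchanged by base change. -/
theorem det_baseChange (ρ : ResidualGaloisRep k) (K : Type) [Field K] [Algebra k K] (σ : Γ) :
    LinearMap.det ((ρ.baseChange K).ρ σ) = algebraMap k K (LinearMap.det (ρ.ρ σ)) := by
  show LinearMap.det ((ρ.ρ σ).baseChange K) = _
  exact LinearMap.det_baseChange (ρ.ρ σ)

/-- **Irreducible + odd involution ⇒ irreducible after every base change.** -/
theorem isIrreducible_baseChange (ρ : ResidualGaloisRep k) (h2 : (2 : k) ≠ 0)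
    (hirr : ρ.IsIrreducible) (c : Γ) (hc : c * c = 1) (hdet : LinearMap.det (ρ.ρ c) = -1)
    (K : Type) [Field K] [Algebra k K] : (ρ.baseChange K).IsIrreducible := by
  classical
  have hu : ρ.ρ c * ρ.ρ c = 1 := by rw [← map_mul, hc, map_one]
  obtain ⟨e₁, e₂, h₁, h₂, hu₁, hu₂⟩ := exists_eigenvectors ρ.finrank_eq h2 (ρ.ρ c) hu hdet
  have hli := linearIndependent_eigenvectors h2 (ρ.ρ c) h₁ h₂ hu₁ hu₂
  have hcard : Fintype.card (Fin 2) = Module.finrank k ρ.V := by
    rw [ρ.finrank_eq, Fintype.card_fin]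
  let b : Module.Basis (Fin 2) k ρ.V := basisOfLinearIndependentOfCardEqFinrank hli hcard
  have hb0 : b 0 = e₁ := by
    simp [b, coe_basisOfLinearIndependentOfCardEqFinrank]
  have hb1 : b 1 = e₂ := by
    simp [b, coe_basisOfLinearIndependentOfCardEqFinrank]
  let B : Module.Basis (Fin 2) K (K ⊗[k] ρ.V) := Algebra.TensorProduct.basis K b
  have hB0 : B 0 = 1 ⊗ₜ[k] e₁ := by rw [← hb0]; exact Algebra.TensorProduct.basis_apply b 0
  have hB1 : B 1 = 1 ⊗ₜ[k] e₂ := by rw [← hb1]; exact Algebra.TensorProduct.basis_apply b 1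
  have h2K : (2 : K) ≠ 0 := by
    intro h
    apply h2
    apply (algebraMap k K).injective
    rw [map_ofNat, map_zero]; exact h
  intro W hW
  by_contra hcon
  push Not at hcon
  obtain ⟨hbot, htop⟩ := hcon
  -- the action of `σ` on the two basis vectors
  have hact : ∀ (σ : Γ) (e : ρ.V), (ρ.baseChange K).ρ σ (1 ⊗ₜ[k] e) = 1 ⊗ₜ[k] (ρ.ρ σ e) := by
    intro σ e
    show (ρ.ρ σ).baseChange K (1 ⊗ₜ[k] e) = _
    rw [LinearMap.baseChange_tmul]
  -- a stable subspace containing one eigenvector contains the other one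
  have key : ∀ (e e' : ρ.V), e ≠ 0 → (∀ v : ρ.V, ∃ x y : k, v = x • e + y • e') →
      (¬ ∃ x : k, e' = x • e) →
      (1 : K) ⊗ₜ[k] e ∈ W → (1 : K) ⊗ₜ[k] e' ∈ W := by
    intro e e' he hspan hne hmem
    -- the line `k e` is not stable
    have hline : ¬ ∀ σ : Γ, ∀ x ∈ Submodule.span k {e}, ρ.ρ σ x ∈ Submodule.span k {e} := by
      intro hst
      rcases hirr _ hst with h | h
      · exact he ((Submodule.span_singleton_eq_bot).mp h)
      · apply hne
        have : e' ∈ Submodule.span k {e} := by rw [h]; exact Submodule.mem_top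
        obtain ⟨x, hx⟩ := Submodule.mem_span_singleton.mp this
        exact ⟨x, hx.symm⟩
    push Not at hline
    obtain ⟨σ, x, hx, hnot⟩ := hline
    obtain ⟨a, rfl⟩ := Submodule.mem_span_singleton.mp hx
    have hnot' : ρ.ρ σ e ∉ Submodule.span k {e} := by
      intro h
      apply hnot
      rw [map_smul]
      exact Submodule.smul_mem _ _ h
    obtain ⟨x, y, hxy⟩ := hspan (ρ.ρ σ e)
    have hy : y ≠ 0 := by
      rintro rfl
      apply hnot'
      rw [hxy, zero_smul, add_zero]
      exact Submodule.smul_mem _ _ (Submodule.mem_span_singleton_self e)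
    have h1 : (1 : K) ⊗ₜ[k] (ρ.ρ σ e) ∈ W := by
      rw [← hact]; exact hW σ _ hmem
    rw [hxy, TensorProduct.tmul_add, TensorProduct.tmul_smul, TensorProduct.tmul_smul] at h1
    have h3 : y • ((1 : K) ⊗ₜ[k] e') ∈ W := by
      have := W.sub_mem h1 (W.smul_of_tower_mem x hmem)
      rwa [add_sub_cancel_left] at this
    have h4 := W.smul_of_tower_mem y⁻¹ h3
    rwa [smul_smul, inv_mul_cancel₀ hy, one_smul] at h4
  have hspan12 : ∀ v : ρ.V, ∃ x y : k, v = x • e₁ + y • e₂ := by
    intro v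
    refine ⟨b.repr v 0, b.repr v 1, ?_⟩
    conv_lhs => rw [← b.sum_repr v]
    rw [Fin.sum_univ_two, hb0, hb1]
  have hspan21 : ∀ v : ρ.V, ∃ x y : k, v = x • e₂ + y • e₁ := by
    intro v
    obtain ⟨x, y, h⟩ := hspan12 v
    exact ⟨y, x, by rw [h, add_comm]⟩
  have hne12 : ¬ ∃ x : k, e₂ = x • e₁ := by
    rintro ⟨x, hx⟩
    have := (LinearIndependent.pair_iff.mp hli) x (-1) (by rw [neg_smul, one_smul, ← hx]; simp)
    exact one_ne_zero (neg_eq_zero.mp this.2)
  have hne21 : ¬ ∃ x : k, e₁ = x • e₂ := by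
    rintro ⟨x, hx⟩
    have := (LinearIndependent.pair_iff.mp hli) (-1) x (by rw [neg_smul, one_smul, ← hx]; simp)
    exact one_ne_zero (neg_eq_zero.mp this.1)
  -- `W` contains one of the two basis vectors
  have hone : (1 : K) ⊗ₜ[k] e₁ ∈ W ∨ (1 : K) ⊗ₜ[k] e₂ ∈ W := by
    obtain ⟨w, hwW, hw0⟩ := (Submodule.ne_bot_iff W).mp hbot
    have hrepr : w = B.repr w 0 • ((1 : K) ⊗ₜ[k] e₁) + B.repr w 1 • ((1 : K) ⊗ₜ[k] e₂) := by
      conv_lhs => rw [← B.sum_repr w]
      rw [Fin.sum_univ_two, hB0, hB1]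
    have hUw : (ρ.baseChange K).ρ c w =
        B.repr w 0 • ((1 : K) ⊗ₜ[k] e₁) - B.repr w 1 • ((1 : K) ⊗ₜ[k] e₂) := by
      conv_lhs => rw [hrepr]
      rw [map_add, map_smul, map_smul, hact, hact, hu₁, hu₂, TensorProduct.tmul_neg, smul_neg,
        sub_eq_add_neg]
    have hUW : (ρ.baseChange K).ρ c w ∈ W := hW c w hwW
    by_cases ha : B.repr w 0 = 0
    · right
      have hb' : B.repr w 1 ≠ 0 := by
        intro hb'
        apply hw0
        rw [hrepr, ha, hb', zero_smul, zero_smul, add_zero]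
      have : B.repr w 1 • ((1 : K) ⊗ₜ[k] e₂) ∈ W := by
        have h := hwW
        rw [hrepr, ha, zero_smul, zero_add] at h
        exact h
      have h4 := W.smul_mem (B.repr w 1)⁻¹ this
      rwa [smul_smul, inv_mul_cancel₀ hb', one_smul] at h4
    · left
      have hsum : (2 * B.repr w 0) • ((1 : K) ⊗ₜ[k] e₁) ∈ W := by
        have h := W.add_mem hwW hUW
        rw [hUw] at h
        nth_rewrite 1 [hrepr] at h
        have e : B.repr w 0 • ((1 : K) ⊗ₜ[k] e₁) + B.repr w 1 • ((1 : K) ⊗ₜ[k] e₂) +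
            (B.repr w 0 • ((1 : K) ⊗ₜ[k] e₁) - B.repr w 1 • ((1 : K) ⊗ₜ[k] e₂)) =
            (2 * B.repr w 0) • ((1 : K) ⊗ₜ[k] e₁) := by
          rw [mul_smul, two_smul]; abel
        rwa [e] at h
      have hne : 2 * B.repr w 0 ≠ 0 := mul_ne_zero h2K ha
      have h4 := W.smul_mem (2 * B.repr w 0)⁻¹ hsum
      rwa [smul_smul, inv_mul_cancel₀ hne, one_smul] at h4
  -- hence both, hence everything
  have hboth : (1 : K) ⊗ₜ[k] e₁ ∈ W ∧ (1 : K) ⊗ₜ[k] e₂ ∈ W := by
    rcases hone with h | h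
    · exact ⟨h, key e₁ e₂ h₁ hspan12 hne12 h⟩
    · exact ⟨key e₂ e₁ h₂ hspan21 hne21 h, h⟩
  apply htop
  rw [eq_top_iff]
  intro w _
  have hrepr : w = B.repr w 0 • ((1 : K) ⊗ₜ[k] e₁) + B.repr w 1 • ((1 : K) ⊗ₜ[k] e₂) := by
    conv_lhs => rw [← B.sum_repr w]
    rw [Fin.sum_univ_two, hB0, hB1]
  rw [hrepr]
  exact W.add_mem (W.smul_mem _ hboth.1) (W.smul_mem _ hboth.2)

/-- **Irreducible + odd involution ⇒ absolutely irreducible.** -/
theorem isAbsolutelyIrreducible (ρ : ResidualGaloisRep k) (h2 : (2 : k) ≠ 0)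
    (hirr : ρ.IsIrreducible) (c : Γ) (hc : c * c = 1) (hdet : LinearMap.det (ρ.ρ c) = -1) :
    ρ.IsAbsolutelyIrreducible :=
  isIrreducible_baseChange ρ h2 hirr c hc hdet (AlgebraicClosure k)

/-- The same for every base change `ρ ⊗ K`: it is absolutely irreducible too. -/
theorem isAbsolutelyIrreducible_baseChange (ρ : ResidualGaloisRep k) (h2 : (2 : k) ≠ 0)
    (hirr : ρ.IsIrreducible) (c : Γ) (hc : c * c = 1) (hdet : LinearMap.det (ρ.ρ c) = -1)
    (K : Type) [Field K] [Algebra k K] : (ρ.baseChange K).IsAbsolutelyIrreducible := by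
  have h2K : (2 : K) ≠ 0 := by
    intro h
    apply h2
    apply (algebraMap k K).injective
    rw [map_ofNat, map_zero]; exact h
  refine isAbsolutelyIrreducible (ρ.baseChange K) h2K
    (isIrreducible_baseChange ρ h2 hirr c hc hdet K) c hc ?_
  rw [det_baseChange, hdet, map_neg, map_one]

end Fermat.Agent.S43.Rbar.AbsIrr
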