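/-
PROJECT R (S43), block RB (leader helper27): THE MOD `p` REPRESENTATION OF THE FREY CURVE as a
`ResidualGaloisRep (ZMod p)`, and its properties over `𝔽_p`.

`P : FreyPackage`, `p = P.p`.

* `rbarF P` : the Prelude's `residualGaloisRepOf P.freyCurve p` (`hcard` from S13, `hker` from
  `S30/Residual/FreyAttach`);
* `exists_conj` : for every integral model `W` of the Frey curve, a linear equivalence of
  `(rbarF P).V` with main's `Vp W p` intertwining `(rbarF P).ρ` with main's `rho W p`;
* `isIrreducible` : `rbarF P` is irreducible (from `hirr`);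
* `det_eq_omega` : `det (rbarF P σ) = ω(σ)` (main: `S44/Ent/DetE.det_rho`);
* `charpoly_frob` : `charpoly (rbarF P Frob_ℓ) = X² - a_ℓ(W) X + ℓ`;
* `charpoly_eq` : `charpoly (rbarF P σ) = X² - tr X + det`;
* `isUnramifiedAt` : S05;
* `det_complexConjugation` : `det (rbarF P c) = -1`.
-/
import Fermat.Agent.S43.Rbar.Seam
import Fermat.Agent.S44.Ent.DetE
import Fermat.Agent.S44.Ent.Frey
import Fermat.Agent.S30.Residual.FreyAttach
import Fermat.Agent.S13.CU.FreyInputs
import Fermat.Agent.S12.V3.FreyInt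
import Fermat.Agent.S05

set_option autoImplicit false
set_option linter.unusedSectionVars false
set_option linter.style.haveILetI false

noncomputable section

namespace Fermat.Agent.S43.Rbar.Frey

open Polynomial WeierstrassCurve WeierstrassCurve.Affine
open scoped WeierstrassCurve.Affine
open Fermat.Agent.S58.TateE (WQ Pts)
open Fermat.Agent.S41.NonEis.Inst
open Fermat.Agent.S41.NonEis.Roots

local notation "Qbar" => AlgebraicClosure ℚ
local notation "GQ" => (AlgebraicClosure ℚ ≃ₐ[ℚ] AlgebraicClosure ℚ)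

variable (P : FreyPackage) [Fact P.p.Prime]

/-- `#E[p] = p²` for the Frey curve, in the Prelude's spelling. -/
theorem hcard :
    Nat.card (Submodule.torsionBy ℤ (P.freyCurve⁄Qbar).Point P.p) = P.p ^ 2 :=
  Fermat.Agent.S13.CU.FreyInputs.natCard_frey P

theorem finite_tors : Finite (Submodule.torsionBy ℤ (P.freyCurve⁄Qbar).Point P.p) :=
  Nat.finite_of_card_ne_zero (by
    rw [hcard P]
    exact pow_ne_zero _ P.pp.ne_zero)

/-- the action on `E[p]` factors through a finite level. -/
theorem hker : GaloisFactorsThroughFiniteLevel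
    (Point.galoisRepModuleEnd (K := Qbar) ℚ P.freyCurve P.p) := by
  haveI := finite_tors P
  exact Fermat.Agent.S30.Residual.FreyAttach.factorsThroughFiniteLevel_of_finite P.freyCurve P.p

/-- **The mod `p` representation of the Frey curve.** -/
def rbarF : ResidualGaloisRep (ZMod P.p) :=
  WeierstrassCurve.residualGaloisRepOf P.freyCurve P.p (hcard P) (hker P)

/-- the carrier of `rbarF P` is `E[p]`. -/
abbrev Tors : Type := Submodule.torsionBy ℤ (P.freyCurve⁄Qbar).Point P.p

theorem rbarF_apply (σ : GQ) (x : Tors P) : (rbarF P).ρ σ x = σ • x :=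
  Point.galoisRepModuleEnd_apply P.freyCurve P.p σ x

theorem two_ne_zero_zmod : (2 : ZMod P.p) ≠ 0 := by
  intro h
  have h3 : ((2 : ℕ) : ZMod P.p) = 0 := by exact_mod_cast h
  rw [ZMod.natCast_eq_zero_iff] at h3
  have := Nat.le_of_dvd (by norm_num) h3
  have := P.hp5
  omega

/-- `rbarF P` is irreducible. -/
theorem isIrreducible
    (hirr : Point.GaloisRepIsIrreducible (K := Qbar) ℚ P.freyCurve P.p) :
    (rbarF P).IsIrreducible := by
  intro N hN
  exact hirr.2 N (fun σ x hx => by
    have := hN σ x hx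
    rwa [rbarF_apply P σ x] at this)

/-- the Frey curve is elliptic. -/
theorem isElliptic : P.freyCurve.IsElliptic :=
  ⟨isUnit_iff_ne_zero.mpr (Fermat.Agent.S13.CU.FreyInputs.frey_Δ_ne_zero P)⟩

/-- the Prelude's integral model. -/
theorem isIntegralModelOf_int : P.freyCurveInt.IsIntegralModelOf P.freyCurve :=
  ⟨1, by rw [one_smul]; exact (Fermat.Agent.S12.V3.FreyInt.freyCurveInt_map P).symm⟩

section model

variable {W : WeierstrassCurve ℤ} (hW : W.IsIntegralModelOf P.freyCurve)
include hW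

theorem disc_ne_zero : W.Δ ≠ 0 :=
  haveI := isElliptic P
  Fermat.Agent.S41.NonEis.Main.disc_ne_zero P.freyCurve hW

theorem irreducible_model
    (hirr : Point.GaloisRepIsIrreducible (K := Qbar) ℚ P.freyCurve P.p) :
    Point.GaloisRepIsIrreducible (K := Qbar) ℚ (WQ W) P.p := by
  obtain ⟨C, hC⟩ := hW
  show Point.GaloisRepIsIrreducible (K := Qbar) ℚ (W.map (Int.castRingHom ℚ)) P.p
  rw [← hC]
  exact Fermat.Agent.S41.NonEis.Transfer.irreducible_smul P.freyCurve C P.p hirr

/-- **the intertwiner** with main's `Vp W p`, `rho W p`. -/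
theorem exists_conj : ∃ e : (rbarF P).V ≃ₗ[ZMod P.p] Vp W P.p,
    ∀ σ : GQ, ∀ x : (rbarF P).V, e ((rbarF P).ρ σ x) = rho W P.p σ (e x) := by
  obtain ⟨C, hC⟩ := hW
  obtain ⟨e, he⟩ := Fermat.Agent.S44.Ent.Frey.exists_addEquiv_of_smul_eq C hC P.p
  refine ⟨{ e with map_smul' := fun c x => ?_ }, fun σ x => ?_⟩
  · exact ZMod.map_smul e c x
  · show e ((rbarF P).ρ σ x) = rho W P.p σ (e x)
    rw [rbarF_apply P σ x, rho_apply]
    exact he σ x

omit hW in
theorem conj_eq (e : (rbarF P).V ≃ₗ[ZMod P.p] Vp W P.p)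
    (he : ∀ σ : GQ, ∀ x : (rbarF P).V, e ((rbarF P).ρ σ x) = rho W P.p σ (e x)) (σ : GQ) :
    e.conj ((rbarF P).ρ σ) = rho W P.p σ := by
  refine LinearMap.ext fun y => ?_
  rw [LinearEquiv.conj_apply_apply, he, LinearEquiv.apply_symm_apply]

end model

/-- **`det rbarF = ω`.** -/
theorem det_eq_omega
    (hirr : Point.GaloisRepIsIrreducible (K := Qbar) ℚ P.freyCurve P.p) (σ : GQ) :
    LinearMap.det ((rbarF P).ρ σ) = ((omega P.p σ : (ZMod P.p)ˣ) : ZMod P.p) := by
  have hW := isIntegralModelOf_int P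
  obtain ⟨e, he⟩ := exists_conj P hW
  rw [← Fermat.Agent.S44.Ent.DetE.det_rho (disc_ne_zero P hW) (irreducible_model P hW hirr) σ,
    ← conj_eq P e he σ, LinearEquiv.conj_apply]
  exact (LinearMap.det_conj _ e).symm

theorem det_complexConjugation
    (hirr : Point.GaloisRepIsIrreducible (K := Qbar) ℚ P.freyCurve P.p) :
    LinearMap.det ((rbarF P).ρ complexConjugation) = -1 := by
  rw [det_eq_omega P hirr, omega_complexConjugation, Units.val_neg, Units.val_one]

/-- the characteristic polynomial in rank two. -/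
theorem charpoly_eq_of_finrank_two {K : Type*} [Field K] {V : Type*} [AddCommGroup V] [Module K V]
    [Module.Finite K V] (h2 : Module.finrank K V = 2) (f : V →ₗ[K] V) :
    LinearMap.charpoly f = X ^ 2 - C (LinearMap.trace K V f) * X + C (LinearMap.det f) := by
  let b : Module.Basis (Fin 2) K V := Module.finBasisOfFinrankEq K V h2
  rw [← LinearMap.charpoly_toMatrix f b, Matrix.charpoly_fin_two,
    LinearMap.trace_eq_matrix_trace K b f, LinearMap.det_toMatrix b]

/-- **the characteristic polynomial of Frobenius.** -/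
theorem charpoly_frob
    (hirr : Point.GaloisRepIsIrreducible (K := Qbar) ℚ P.freyCurve P.p)
    {W : WeierstrassCurve ℤ} (hW : W.IsIntegralModelOf P.freyCurve)
    {ℓ : ℕ} (hℓ : ℓ.Prime) (hgood : W.IsGoodPrimeFor ℓ) (hℓp : ℓ ≠ P.p)
    (A : ValuationSubring Qbar) (hA : A.LiesOverPrime ℓ) (σ : GQ) (hσ : A.IsFrobeniusAt σ ℓ) :
    LinearMap.charpoly ((rbarF P).ρ σ) =
      X ^ 2 - C (((W.apOfModel ℓ : ℤ) : ZMod P.p)) * X + C ((ℓ : ZMod P.p)) := by
  obtain ⟨e, he⟩ := exists_conj P hW
  have hΔ := disc_ne_zero P hW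
  have hirr' := irreducible_model P hW hirr
  have hfin := finrank_Vp P.p hΔ
  haveI : Module.Finite (ZMod P.p) (Vp W P.p) :=
    Module.finite_of_finrank_pos (by rw [hfin]; norm_num)
  rw [← LinearEquiv.charpoly_conj e, conj_eq P e he σ, charpoly_eq_of_finrank_two hfin,
    Fermat.Agent.S44.Ent.DetE.trace_rho_frob hΔ hirr' hℓ hgood hℓp A hA σ hσ,
    Fermat.Agent.S44.Ent.DetE.det_rho_frob hΔ hirr' hℓ hℓp A hA σ hσ]

/-- **S05**: `rbarF P` is unramified at the odd primes `q ≠ p`. -/
theorem isUnramifiedAt {q : ℕ} (hq : q.Prime) (hq2 : q ≠ 2) (hqp : q ≠ P.p) :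
    (rbarF P).IsUnramifiedAt q := by
  intro A hA σ hσ
  refine LinearMap.ext fun x => ?_
  rw [rbarF_apply P σ x, Module.End.one_apply]
  exact Fermat.Agent.S05.result P hq hq2 hqp A hA σ hσ x

end Fermat.Agent.S43.Rbar.Frey
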