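import Fermat.Agent.S13.Local.FreyTwo
import Fermat.Agent.S13.Local.Ram
import Fermat.Agent.S15.E2.Local.Inf
import Fermat.Prelude.Def_GaloisRep_Residual

/-!
# PROJECT R (S43), block RB, brick `Two`: inertia at `2` on `E[p]` of the Frey curve

`P : FreyPackage`, `A` a valuation subring of `ℚ̄` over `2`, `I_A = A.inertiaSubgroupIn ℚ`.

* `exists_node_torsion` : a point `T₀ ≠ 0` of `E(ℚ̄)` with `p • T₀ = 0` reducing to the node
  (main's `S15/E2/Local/Inf.exists_torsion_at_node`);
* `exists_inertia_ne_of_node` : such a point is moved by some element of `I_A` (phase theorem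
  `S13/Local/NodalRules.phase` + `S13/Local/Ram.exists_zpow_valuation_eq` + `v a₄ = v 2 ^ k`,
  `p ∤ k`);
* `exists_inertia_ne` : some `σ ∈ I_A` and some `x ∈ E[p]` with `σ • x ≠ x`;
* `not_unramifiedAt_two` : `¬ P.GaloisRepUnramifiedAt 2`;
* `unipotent_two` : every `σ ∈ I_A` satisfies `σ • (σ • x - x) = σ • x - x` on `E[p]`
  (main's `S13/Local/FreyTwo.frey_h2`);
* `End` forms: `exists_end_ne_one`, `end_sub_one_sq` for `galoisRepModuleEnd`.
-/

set_option autoImplicit false
set_option linter.unusedSectionVars false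

open WeierstrassCurve WeierstrassCurve.Affine WeierstrassCurve.Affine.Point

namespace Fermat.Agent.S43.Rbar.Two

open Fermat.Agent.S13.Local Fermat.Agent.S13.Local.NodalData Fermat.Agent.S13.Global
open Fermat.Agent.S05.FreyLeg

local notation "Qbar" => AlgebraicClosure ℚ
local notation "GQ" => (AlgebraicClosure ℚ ≃ₐ[ℚ] AlgebraicClosure ℚ)

variable (P : FreyPackage)

/-- `p ≠ 2` -/
theorem p_ne_two : P.p ≠ 2 := by
  have := P.hp5
  omega

/-- a non-zero point killed by `p` that reduces to the node at `A` over `2` -/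
theorem exists_node_torsion {A : ValuationSubring Qbar} (hA : A.LiesOverPrime 2) :
    ∃ T₀ : (P.freyCurve⁄Qbar).Point, P.p • T₀ = 0 ∧ T₀ ≠ 0 ∧
      A.valuation (NodalInst.ptX (P.freyCurve⁄Qbar) T₀) < 1 := by
  have H := FreyTwoArith.hyp (K := Qbar) P hA
  have hodd : Odd P.p := P.pp.odd_of_ne_two (p_ne_two P)
  exact Fermat.Agent.S15.E2.Local.Inf.exists_torsion_at_node
    (FreyTwoArith.isNodalForm (K := Qbar) P) H hodd P.pp.one_lt (FreyTwo.v_p P hA)

/-- a point of order `p` reducing to the node at `A` over `2` is moved by the inertia group -/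
theorem exists_inertia_ne_of_node {A : ValuationSubring Qbar} (hA : A.LiesOverPrime 2)
    {T₀ : (P.freyCurve⁄Qbar).Point} (hpT : P.p • T₀ = 0) (hT0 : T₀ ≠ 0)
    (hX : A.valuation (NodalInst.ptX (P.freyCurve⁄Qbar) T₀) < 1) :
    ∃ σ ∈ A.inertiaSubgroupIn ℚ, σ • T₀ ≠ T₀ := by
  by_contra hcon
  push Not at hcon
  have hW := FreyTwoArith.isNodalForm (K := Qbar) P
  have H := FreyTwoArith.hyp (K := Qbar) P hA
  obtain ⟨k, -, hk1, hk2⟩ := FreyTwoArith.exists_v_a4 (K := Qbar) P hA
  have h2ne : A.valuation (2 : Qbar) ≠ 0 := by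
    rw [Valuation.ne_zero_iff]
    exact two_ne_zero
  have h2lt : A.valuation (2 : Qbar) < 1 := FreyTwoArith.v_two_lt_one hA
  -- `T₀` does not have non-singular reduction
  have hnE : ¬ (NodalInst.nodalData hW).E0 A.valuation T₀ := by
    rintro (h | h)
    · exact hT0 h
    · exact absurd hX (not_lt.mpr h)
  -- all its non-trivial multiples reduce to the node
  have hall : ∀ j, 0 < j → j < P.p →
      A.valuation ((NodalInst.nodalData hW).X (j • T₀)) < 1 := by
    intro j hj0 hjp
    have hnd : ¬ P.p ∣ j := fun hd => absurd (Nat.le_of_dvd hj0 hd) (not_le.mpr hjp)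
    exact (Fermat.Agent.S15.E2.Local.Nodal.multiples_at_node (NodalInst.nodalData hW)
      A.valuation H P.pp hpT hnE hnd).2
  obtain ⟨i, hi0, hip, heq⟩ := NodalRules.phase (D := NodalInst.nodalData hW) H P.pp
    (p_ne_two P) hT0 hpT hall
  -- the `X`-coordinate is fixed by inertia
  have hfix : ∀ s ∈ A.inertiaSubgroupIn ℚ,
      s (NodalInst.ptX (P.freyCurve⁄Qbar) T₀) = NodalInst.ptX (P.freyCurve⁄Qbar) T₀ := by
    intro s hs
    have h1 := NodalInst.ptX_smul (W' := P.freyCurve) s T₀
    rw [hcon s hs] at h1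
    exact h1.symm
  change A.valuation (NodalInst.ptX (P.freyCurve⁄Qbar) T₀) ^ P.p = _ at heq
  by_cases hx0 : NodalInst.ptX (P.freyCurve⁄Qbar) T₀ = 0
  · rw [hx0, _root_.map_zero, zero_pow P.pp.ne_zero, hk1, ← pow_mul] at heq
    exact pow_ne_zero _ h2ne heq.symm
  · obtain ⟨m, hm⟩ := Ram.exists_zpow_valuation_eq' Nat.prime_two hA hx0 hfix
    have h2c : (((2 : ℕ) : Qbar)) = 2 := by norm_num
    rw [h2c] at hm
    rw [hm, hk1] at heq
    exact FreyTwoCore.zpow_phase_contra h2ne h2lt P.pp (p_ne_two P) hk2 hi0 hip heq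

/-- **inertia at `2` acts non-trivially on `E[p]`** (at every place over `2`) -/
theorem exists_inertia_ne {A : ValuationSubring Qbar} (hA : A.LiesOverPrime 2) :
    ∃ σ ∈ A.inertiaSubgroupIn ℚ, ∃ x : Tors P.freyCurve P.p, σ • x ≠ x := by
  obtain ⟨T₀, hpT, hT0, hX⟩ := exists_node_torsion P hA
  obtain ⟨σ, hσ, hne⟩ := exists_inertia_ne_of_node P hA hpT hT0 hX
  have hmem : T₀ ∈ Submodule.torsionBy ℤ (P.freyCurve⁄Qbar).Point P.p := by
    rw [Submodule.mem_torsionBy_iff, natCast_zsmul]
    exact hpT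
  refine ⟨σ, hσ, ⟨T₀, hmem⟩, fun h => hne ?_⟩
  exact congrArg Subtype.val h

/-- the mod `p` representation of the Frey curve is ramified at `2` -/
theorem not_unramifiedAt_two : ¬ P.GaloisRepUnramifiedAt 2 := by
  intro h
  obtain ⟨A, hA⟩ :=
    Fermat.Agent.Lib.FrobeniusExists.exists_valuationSubring_algebraicClosure 2 Nat.prime_two
  obtain ⟨σ, hσ, x, hx⟩ := exists_inertia_ne P hA
  exact hx (h A hA σ hσ x)

/-- **inertia at `2` acts unipotently on `E[p]`** -/
theorem unipotent_two {A : ValuationSubring Qbar} (hA : A.LiesOverPrime 2) {σ : GQ}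
    (hσ : σ ∈ A.inertiaSubgroupIn ℚ) (x : Tors P.freyCurve P.p) :
    σ • (σ • x - x) = σ • x - x := by
  obtain ⟨V₀, h1, h2⟩ := FreyTwo.frey_h2 P A hA
  exact h2 σ hσ _ (h1 σ hσ x)

/-! ### `Module.End` forms -/

/-- the Galois action on `E[p]` as an endomorphism (Prelude's `galoisRepModuleEnd`) -/
noncomputable abbrev rho (σ : GQ) : Module.End (ZMod P.p) (Tors P.freyCurve P.p) :=
  galoisRepModuleEnd (K := AlgebraicClosure ℚ) ℚ P.freyCurve P.p σ

theorem rho_apply (σ : GQ) (x : Tors P.freyCurve P.p) : rho P σ x = σ • x :=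
  galoisRepModuleEnd_apply P.freyCurve P.p σ x

/-- some element of the inertia group at `2` acts non-trivially -/
theorem exists_rho_ne_one {A : ValuationSubring Qbar} (hA : A.LiesOverPrime 2) :
    ∃ σ ∈ A.inertiaSubgroupIn ℚ, rho P σ ≠ 1 := by
  obtain ⟨σ, hσ, x, hx⟩ := exists_inertia_ne P hA
  refine ⟨σ, hσ, fun h => hx ?_⟩
  have h1 := congrArg (fun f : Module.End (ZMod P.p) (Tors P.freyCurve P.p) => f x) h
  simpa only [rho_apply, Module.End.one_apply] using h1

/-- every element of the inertia group at `2` acts unipotently -/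
theorem rho_sub_one_sq {A : ValuationSubring Qbar} (hA : A.LiesOverPrime 2) {σ : GQ}
    (hσ : σ ∈ A.inertiaSubgroupIn ℚ) : (rho P σ - 1) * (rho P σ - 1) = 0 := by
  refine LinearMap.ext fun x => ?_
  have h := unipotent_two P hA hσ x
  simp only [Module.End.mul_apply, LinearMap.sub_apply, Module.End.one_apply, rho_apply,
    LinearMap.zero_apply, map_sub]
  rw [← smul_sub, h, sub_self]

/-! ### Base change to a coefficient field `k ⊇ 𝔽_p` -/

section BaseChange

open scoped TensorProduct

variable {F k V : Type*} [Field F] [Field k] [Algebra F k] [AddCommGroup V] [Module F V]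

theorem baseChange_ne_one {f : Module.End F V} (hf : f ≠ 1) : f.baseChange k ≠ 1 := by
  intro h
  apply hf
  apply LinearMap.baseChangeHom_injective F V k
  rw [LinearMap.baseChangeHom_apply, LinearMap.baseChangeHom_apply, h]
  exact (LinearMap.baseChange_one (R := F) (A := k) (M := V)).symm

theorem baseChange_sub_one_sq {f : Module.End F V} (hf : (f - 1) * (f - 1) = 0) :
    (f.baseChange k - 1) * (f.baseChange k - 1) = 0 := by
  have h := congrArg (fun g : Module.End F V => g.baseChange k) hf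
  simp only [LinearMap.baseChange_mul, LinearMap.baseChange_sub, LinearMap.baseChange_one,
    LinearMap.baseChange_zero] at h
  exact h

end BaseChange

/-! ### The `ResidualGaloisRep` form -/

section Residual

variable [Fact P.p.Prime]
  (hcard : Nat.card (Submodule.torsionBy ℤ (P.freyCurve⁄(AlgebraicClosure ℚ)).Point P.p)
    = P.p ^ 2)
  (hker : GaloisFactorsThroughFiniteLevel
    (WeierstrassCurve.Affine.Point.galoisRepModuleEnd (K := AlgebraicClosure ℚ) ℚ
      P.freyCurve P.p))
  (k : Type) [Field k] [Algebra (ZMod P.p) k]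

/-- **inertia at `2` acts non-trivially on `ρ̄_{E,p} ⊗ k`** -/
theorem residual_exists_ne_one {A : ValuationSubring Qbar} (hA : A.LiesOverPrime 2) :
    ∃ σ ∈ A.inertiaSubgroupIn ℚ,
      ((WeierstrassCurve.residualGaloisRepOf P.freyCurve P.p hcard hker).baseChange k).ρ σ
        ≠ 1 := by
  obtain ⟨σ, hσ, hne⟩ := exists_rho_ne_one P hA
  exact ⟨σ, hσ, baseChange_ne_one (k := k) hne⟩

/-- `ρ̄_{E,p} ⊗ k` is ramified at `2` -/
theorem residual_not_isUnramifiedAt_two :
    ¬ ((WeierstrassCurve.residualGaloisRepOf P.freyCurve P.p hcard hker).baseChange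
      k).IsUnramifiedAt 2 := by
  intro h
  obtain ⟨A, hA⟩ :=
    Fermat.Agent.Lib.FrobeniusExists.exists_valuationSubring_algebraicClosure 2 Nat.prime_two
  obtain ⟨σ, hσ, hne⟩ := residual_exists_ne_one P hcard hker k hA
  exact hne (h A hA σ hσ)

/-- **inertia at `2` acts unipotently on `ρ̄_{E,p} ⊗ k`** -/
theorem residual_sub_one_sq {A : ValuationSubring Qbar} (hA : A.LiesOverPrime 2) {σ : GQ}
    (hσ : σ ∈ A.inertiaSubgroupIn ℚ) :
    (((WeierstrassCurve.residualGaloisRepOf P.freyCurve P.p hcard hker).baseChange k).ρ σ - 1) *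
      (((WeierstrassCurve.residualGaloisRepOf P.freyCurve P.p hcard hker).baseChange k).ρ σ - 1)
        = 0 :=
  baseChange_sub_one_sq (k := k) (rho_sub_one_sq P hA hσ)

end Residual

end Fermat.Agent.S43.Rbar.Two
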