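/-
PROJECT R (S43), block RB (leader helper27): THE EXPORT.

`P : FreyPackage` with irreducible mod `p` representation, `k` a field over `𝔽_p` in which every
monic quadratic over `𝔽_p` splits.  Then `rbar P k := (rbarF P) ⊗ k` satisfies `Seam.IsFreyResidual`.
-/
import Fermat.Agent.S43.Rbar.Frey
import Fermat.Agent.S43.Rbar.AbsIrr
import Fermat.Agent.S43.Rbar.Two

set_option autoImplicit false
set_option linter.unusedSectionVars false
set_option linter.style.haveILetI false

noncomputable section

namespace Fermat.Agent.S43.Rbar.Export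

open Polynomial WeierstrassCurve WeierstrassCurve.Affine
open scoped WeierstrassCurve.Affine
open Fermat.Agent.S43.Rbar.Frey Fermat.Agent.S43.Rbar.Seam
open Fermat.Agent.S41.NonEis.Roots

local notation "Qbar" => AlgebraicClosure ℚ
local notation "GQ" => (AlgebraicClosure ℚ ≃ₐ[ℚ] AlgebraicClosure ℚ)

variable (P : FreyPackage) [Fact P.p.Prime] (k : Type) [Field k] [Algebra (ZMod P.p) k]

/-- **The residual representation of PROJECT R**: `E[p] ⊗ k` for the Frey curve. -/
def rbar : ResidualGaloisRep k := (rbarF P).baseChange k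

theorem rbar_apply (σ : GQ) : (rbar P k).ρ σ = ((rbarF P).ρ σ).baseChange k := rfl

theorem natCast_p_eq_zero : ((P.p : ℕ) : k) = 0 := by
  rw [← map_natCast (algebraMap (ZMod P.p) k), ZMod.natCast_self, map_zero]

include P in
theorem two_ne_zero_k : (2 : k) ≠ 0 := by
  intro h
  apply two_ne_zero_zmod P
  apply (algebraMap (ZMod P.p) k).injective
  rw [map_ofNat, map_zero]
  exact h

/-- the value of the cyclotomic character from the action on the `p`-th roots of unity. -/
theorem omega_eq_natCast (σ : GQ) (a : ℕ)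
    (h : ∀ μ : Qbar, μ ^ P.p = 1 → σ μ = μ ^ a) :
    ((omega P.p σ : (ZMod P.p)ˣ) : ZMod P.p) = (a : ZMod P.p) := by
  haveI : NeZero P.p := ⟨P.pp.ne_zero⟩
  obtain ⟨ζ, hζ⟩ := HasEnoughRootsOfUnity.exists_primitiveRoot Qbar P.p
  have h1 := h ζ hζ.pow_eq_one
  rw [omega_spec P.p σ hζ.pow_eq_one] at h1
  have hζ0 : ζ ≠ 0 := hζ.ne_zero P.pp.ne_zero
  have h2 : ζ ^ ((((omega P.p σ : (ZMod P.p)ˣ) : ZMod P.p).val : ℤ) - (a : ℤ)) = 1 := by
    rw [zpow_sub₀ hζ0, zpow_natCast, zpow_natCast, h1, div_self (pow_ne_zero _ hζ0)]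
  have h3 := (hζ.zpow_eq_one_iff_dvd _).mp h2
  have h4 := (ZMod.intCast_zmod_eq_zero_iff_dvd _ P.p).mpr h3
  rw [Int.cast_sub, Int.cast_natCast, Int.cast_natCast, ZMod.natCast_zmod_val, sub_eq_zero] at h4
  exact h4

variable (hirr : Point.GaloisRepIsIrreducible (K := Qbar) ℚ P.freyCurve P.p)
include hirr

theorem det_rbar (σ : GQ) :
    LinearMap.det ((rbar P k).ρ σ) =
      algebraMap (ZMod P.p) k ((omega P.p σ : (ZMod P.p)ˣ) : ZMod P.p) := by
  rw [← det_eq_omega P hirr σ]
  exact Fermat.Agent.S43.Rbar.AbsIrr.det_baseChange (rbarF P) k σ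

theorem det_rbar_complexConjugation : LinearMap.det ((rbar P k).ρ complexConjugation) = -1 := by
  rw [det_rbar P k hirr, omega_complexConjugation, Units.val_neg, Units.val_one, map_neg, map_one]

theorem isIrreducible_rbar : (rbar P k).IsIrreducible :=
  Fermat.Agent.S43.Rbar.AbsIrr.isIrreducible_baseChange (rbarF P) (two_ne_zero_zmod P)
    (isIrreducible P hirr) complexConjugation complexConjugation_mul_self
    (det_complexConjugation P hirr) k

theorem isIrreducible_rbar_baseChange (K : Type) [Field K] [Algebra k K] :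
    ((rbar P k).baseChange K).IsIrreducible :=
  Fermat.Agent.S43.Rbar.AbsIrr.isIrreducible_baseChange (rbar P k) (two_ne_zero_k P k)
    (isIrreducible_rbar P k hirr) complexConjugation complexConjugation_mul_self
    (det_rbar_complexConjugation P k hirr) K

theorem isAbsolutelyIrreducible_rbar : (rbar P k).IsAbsolutelyIrreducible :=
  isIrreducible_rbar_baseChange P k hirr (AlgebraicClosure k)

omit hirr in
theorem charpoly_rbar (σ : GQ) :
    LinearMap.charpoly ((rbar P k).ρ σ) =
      (LinearMap.charpoly ((rbarF P).ρ σ)).map (algebraMap (ZMod P.p) k) := by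
  rw [rbar_apply]
  exact LinearMap.charpoly_baseChange _ _

/-- **THE EXPORT OF RB.** -/
theorem isFreyResidual (hk : QuadSplit P.p k) : IsFreyResidual P (rbar P k) where
  habs := isAbsolutelyIrreducible_rbar P k hirr
  hdet := by
    refine ⟨?_, fun n σ a h => ?_⟩
    · rw [natCast_p_eq_zero P k]
      exact Ideal.zero_mem _
    · rcases n with _ | n
      · rw [pow_zero, Nat.cast_one, Ideal.span_singleton_one]
        exact Submodule.mem_top
      · have h0 : ((P.p ^ (n + 1) : ℕ) : k) = 0 := by
          rw [Nat.cast_pow, natCast_p_eq_zero P k, zero_pow (Nat.succ_ne_zero n)]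
        rw [h0, Ideal.span_singleton_eq_bot.mpr rfl, Ideal.mem_bot, sub_eq_zero]
        have hω := omega_eq_natCast P σ a (fun μ hμ => h μ (by
          rw [pow_succ', pow_mul, hμ, one_pow]))
        show LinearMap.det ((rbar P k).ρ σ) = (a : k)
        rw [det_rbar P k hirr, hω, map_natCast]
  hsplit := fun σ => by
    rw [charpoly_rbar, charpoly_eq_of_finrank_two (rbarF P).finrank_eq]
    obtain ⟨α, β, h⟩ := hk (LinearMap.trace (ZMod P.p) (rbarF P).V ((rbarF P).ρ σ))
      (LinearMap.det ((rbarF P).ρ σ))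
    refine ⟨α, β, ?_⟩
    rw [← h]
    simp only [Polynomial.map_add, Polynomial.map_sub, Polynomial.map_mul, Polynomial.map_pow,
      Polynomial.map_X, Polynomial.map_C]
  hTW := by
    obtain ⟨A, hA⟩ :=
      Fermat.Agent.Lib.FrobeniusExists.exists_valuationSubring_algebraicClosure 2 Nat.prime_two
    obtain ⟨τ, hτ, hne⟩ :=
      Fermat.Agent.S43.Rbar.Two.residual_exists_ne_one P (hcard P) (hker P) k hA
    exact Fermat.Agent.S43.Rbar.TWHyp.holds_of_unipotent (rbar P k) (two_ne_zero_k P k)
      (fun K _ _ => isIrreducible_rbar_baseChange P k hirr K) τ hne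
      (Fermat.Agent.S43.Rbar.Two.residual_sub_one_sq P (hcard P) (hker P) k hA hτ)
  hunr := fun q hq hq2 hqp A hA σ hσ => by
    rw [rbar_apply, isUnramifiedAt P hq hq2 hqp A hA σ hσ]
    exact LinearMap.baseChange_one _ _
  hram2 := Fermat.Agent.S43.Rbar.Two.residual_not_isUnramifiedAt_two P (hcard P) (hker P) k
  hunip2 := fun A hA σ hσ =>
    Fermat.Agent.S43.Rbar.Two.residual_sub_one_sq P (hcard P) (hker P) k hA hσ
  hfrob := fun W hW ℓ hℓ hgood hℓp A hA σ hσ => by
    rw [charpoly_rbar, charpoly_frob P hirr hW hℓ hgood hℓp A hA σ hσ]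
    simp only [Polynomial.map_add, Polynomial.map_sub, Polynomial.map_mul, Polynomial.map_pow,
      Polynomial.map_X, Polynomial.map_C]
    rw [map_intCast, map_natCast]

end Fermat.Agent.S43.Rbar.Export
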