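/-
PROJECT R (S43), block RB (leader helper27): `rbar|D_ℓ` IS SCALAR AT THE STUCK PRIMES.

`ρ : ResidualGaloisRep k` unramified at `ℓ`, and ONE Frobenius element `φ` of the fixed place
`padicPlace ℓ` acts as a scalar.  Then every element of the decomposition group `Dq ℓ` acts as a
scalar (`scalar_on_Dq`; main's `S56/Unip/ProCyclic.eq_top_of_frobenius_mem`: `D_ℓ / I_ℓ` is
topologically generated by Frobenius), and the same holds at every place over `ℓ`
(`scalarOnDecomposition`, by conjugation: `Rbar/Seam.ScalarOnDecomposition`).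

`frey_scalarOnDecomposition` : for the Frey curve, from the literal of the chief's
`Assembly/Reduce.FrobScalar P ℓ`.
-/
import Fermat.Agent.S43.Rbar.Export
import Fermat.Agent.S56.Unip.ProCyclic
import Fermat.Agent.CFT.LocalBridge.Conjugacy

set_option autoImplicit false
set_option linter.unusedSectionVars false
set_option linter.style.haveILetI false

noncomputable section

namespace Fermat.Agent.S43.Rbar.Scalar

open Fermat.Agent.S56.Coh Fermat.Agent.CFT.Bridge Fermat.Agent.CFT.LocalBridge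
open Fermat.Agent.CFT.LC
open scoped WeierstrassCurve.Affine Pointwise

local notation "Qbar" => AlgebraicClosure ℚ
local notation "GQ" => (AlgebraicClosure ℚ ≃ₐ[ℚ] AlgebraicClosure ℚ)

variable {k : Type} [Field k] (ρ : ResidualGaloisRep k)

/-- `ρ g` is a scalar. -/
def IsScalarAt (g : GQ) : Prop := ∃ e : k, ρ.ρ g = e • (1 : Module.End k ρ.V)

theorem isScalarAt_one : IsScalarAt ρ 1 := ⟨1, by rw [map_one, one_smul]⟩

theorem IsScalarAt.mul {g h : GQ} (hg : IsScalarAt ρ g) (hh : IsScalarAt ρ h) :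
    IsScalarAt ρ (g * h) := by
  obtain ⟨a, ha⟩ := hg
  obtain ⟨b, hb⟩ := hh
  exact ⟨a * b, by rw [map_mul, ha, hb, smul_mul_smul_comm, mul_one]⟩

theorem IsScalarAt.inv {g : GQ} (hg : IsScalarAt ρ g) : IsScalarAt ρ g⁻¹ := by
  obtain ⟨a, ha⟩ := hg
  have h1 : ρ.ρ g * ρ.ρ g⁻¹ = 1 := by rw [← map_mul, mul_inv_cancel, map_one]
  rw [ha, smul_mul_assoc, one_mul] at h1
  have ha0 : a ≠ 0 := by
    rintro rfl
    rw [zero_smul] at h1
    haveI : Nontrivial ρ.V :=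
      Module.nontrivial_of_finrank_pos (R := k) (by rw [ρ.finrank_eq]; norm_num)
    obtain ⟨v, hv⟩ := exists_ne (0 : ρ.V)
    exact hv (by simpa using (LinearMap.congr_fun h1 v).symm)
  refine ⟨a⁻¹, ?_⟩
  rw [← h1, smul_smul, inv_mul_cancel₀ ha0, one_smul]

/-- conjugation does not change scalars. -/
theorem IsScalarAt.conj {g : GQ} (hg : IsScalarAt ρ g) (h : GQ) : IsScalarAt ρ (h * g * h⁻¹) := by
  obtain ⟨a, ha⟩ := hg
  refine ⟨a, ?_⟩
  rw [map_mul, map_mul, ha, mul_smul_comm, mul_one, smul_mul_assoc, ← map_mul, mul_inv_cancel,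
    map_one]

/-- the elements of `D_ℓ` acting as scalars. -/
def scalarSubgroup (ℓ : ℕ) [Fact ℓ.Prime] : Subgroup ↥(Dq ℓ) where
  carrier := {s | IsScalarAt ρ (s : GQ)}
  one_mem' := isScalarAt_one ρ
  mul_mem' := fun ha hb => IsScalarAt.mul ρ ha hb
  inv_mem' := fun ha => IsScalarAt.inv ρ ha

theorem mem_scalarSubgroup {ℓ : ℕ} [Fact ℓ.Prime] (s : ↥(Dq ℓ)) :
    s ∈ scalarSubgroup ρ ℓ ↔ IsScalarAt ρ (s : GQ) := Iff.rfl

/-- **unramified + one scalar Frobenius ⇒ scalar on `D_ℓ`** (the fixed place). -/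
theorem scalar_on_Dq (ℓ : ℕ) [Fact ℓ.Prime] (hunr : ρ.IsUnramifiedAt ℓ) (φ : GQ)
    (hφ : (padicPlace ℓ).IsFrobeniusAt φ ℓ) (hφs : IsScalarAt ρ φ) :
    ∀ s ∈ Dq ℓ, IsScalarAt ρ s := by
  have htop : scalarSubgroup ρ ℓ = ⊤ := by
    refine Fermat.Agent.S56.Unip.ProCyclic.eq_top_of_frobenius_mem ℓ (scalarSubgroup ρ ℓ) ?_ ?_
      ⟨φ, hφ.mem_decompositionSubgroup⟩ hφ hφs
    · intro s hs
      rw [mem_scalarSubgroup]
      refine ⟨1, ?_⟩
      rw [one_smul]
      exact hunr (padicPlace ℓ) (liesOverPrime_padicPlace ℓ) s hs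
    · obtain ⟨L, hL, h1⟩ := ρ.factorsThroughFiniteLevel
      haveI : FiniteDimensional ℚ L := hL
      obtain ⟨U, hU, hUL⟩ := exists_levelAll_le L
      refine ⟨U.comap (Dq ℓ).subtype, Levels.mem_comap_sets hU, fun s hs => ?_⟩
      rw [mem_scalarSubgroup]
      refine ⟨1, ?_⟩
      rw [one_smul]
      have hs' : (s : GQ) ∈ L.fixingSubgroup := hUL hs
      exact h1 s (fun x hx => (IntermediateField.mem_fixingSubgroup_iff L _).mp hs' x hx)
  intro s hs
  have : (⟨s, hs⟩ : ↥(Dq ℓ)) ∈ scalarSubgroup ρ ℓ := htop ▸ Subgroup.mem_top _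
  exact this

/-- **the same at every place over `ℓ`.** -/
theorem scalarOnDecomposition (ℓ : ℕ) [Fact ℓ.Prime] (hunr : ρ.IsUnramifiedAt ℓ) (φ : GQ)
    (hφ : (padicPlace ℓ).IsFrobeniusAt φ ℓ) (hφs : IsScalarAt ρ φ) :
    Fermat.Agent.S43.Rbar.Seam.ScalarOnDecomposition ρ ℓ := by
  intro A hA s hs
  obtain ⟨g, hg⟩ := exists_smul_padicPlace_eq ℓ hA
  have hs' : g⁻¹ * s * g ∈ Dq ℓ := by
    change g⁻¹ * s * g ∈ MulAction.stabilizer GQ (padicPlace ℓ)
    rw [MulAction.mem_stabilizer_iff, mul_smul, mul_smul, hg]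
    have hsA : s • A = A := hs
    rw [hsA, ← hg, inv_smul_smul]
  have h1 := (scalar_on_Dq ρ ℓ hunr φ hφ hφs _ hs').conj ρ g
  have h2 : g * (g⁻¹ * s * g) * g⁻¹ = s := by group
  rwa [h2] at h1

/-! ### The Frey curve -/

section Frey

open Fermat.Agent.S43.Rbar.Frey Fermat.Agent.S43.Rbar.Export

variable (P : FreyPackage) [Fact P.p.Prime] (K : Type) [Field K] [Algebra (ZMod P.p) K]

/-- a `ℤ`-scalar on `E[p]` is a scalar of `rbar P K`. -/
theorem isScalarAt_rbar {σ : GQ} {c : ℤ}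
    (h : ∀ x : Submodule.torsionBy ℤ (P.freyCurve⁄Qbar).Point P.p, σ • x = c • x) :
    IsScalarAt (rbar P K) σ := by
  refine ⟨(c : K), ?_⟩
  have h1 : (rbarF P).ρ σ = (c : ZMod P.p) • (1 : Module.End (ZMod P.p) (rbarF P).V) := by
    refine LinearMap.ext fun x => ?_
    rw [rbarF_apply P σ x, h x, LinearMap.smul_apply, Module.End.one_apply,
      Int.cast_smul_eq_zsmul]
    rfl
  rw [rbar_apply, h1, LinearMap.baseChange_smul, LinearMap.baseChange_one,
    algebra_compatible_smul K, map_intCast]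
  rfl

/-- **`rbar P K` is scalar on the decomposition groups at a stuck prime** (hypothesis = the literal
of the chief's `Assembly/Reduce.FrobScalar P ℓ`). -/
theorem frey_scalarOnDecomposition {ℓ : ℕ} (hℓ : ℓ.Prime) (hℓ2 : ℓ ≠ 2) (hℓp : ℓ ≠ P.p)
    (hfs : ∀ A : ValuationSubring Qbar, A.LiesOverPrime ℓ → ∀ σ : GQ, A.IsFrobeniusAt σ ℓ →
      ∃ c : ℤ, ∀ x : Submodule.torsionBy ℤ (P.freyCurve⁄Qbar).Point P.p, σ • x = c • x) :
    Fermat.Agent.S43.Rbar.Seam.ScalarOnDecomposition (rbar P K) ℓ := by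
  haveI : Fact ℓ.Prime := ⟨hℓ⟩
  obtain ⟨φ, hφ⟩ := Fermat.Agent.Lib.FrobeniusExists.exists_isFrobeniusAt
    (L := AlgebraicClosure ℚ) (padicPlace ℓ) hℓ (liesOverPrime_padicPlace ℓ)
  obtain ⟨c, hc⟩ := hfs (padicPlace ℓ) (liesOverPrime_padicPlace ℓ) φ hφ
  refine scalarOnDecomposition (rbar P K) ℓ ?_ φ hφ (isScalarAt_rbar P K hc)
  intro A hA σ hσ
  rw [rbar_apply, isUnramifiedAt P hℓ hℓ2 hℓp A hA σ hσ]
  exact LinearMap.baseChange_one _ _

end Frey

end Fermat.Agent.S43.Rbar.Scalar
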