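/-
PROJECT R (S43), block RB, brick Rbar/NonEis (helper27):
A NON-EISENSTEIN PRIME `ℓ ≡ 1 mod M` FOR AN ABSOLUTELY IRREDUCIBLE RESIDUAL REPRESENTATION.

`rbar : ResidualGaloisRep k` absolutely irreducible, `M ≥ 1`, `S` a finite set of primes.  Then there
are a prime `ℓ ∉ S`, `ℓ ≡ 1 mod M`, and a Frobenius element `τ` at `ℓ` such that `rbar τ` does not have
the eigenvalue `1`: `det (rbar τ - 1) ≠ 0`, i.e. `tr rbar(Frob_ℓ) ≠ 1 + det rbar(Frob_ℓ)`
(`exists_nonEisenstein_prime`, `_trace`, `_charpoly`, `_frey`).  This is the prime `ℓ₀` at which the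
boundary of the modular curve of level `M` is cut off (`Hecke/Par`, helper2: `T_ℓ = 1 + ℓ` on the
boundary for `ℓ ≡ 1 mod M`).

No Chebotarev beyond main's Frobenius density (`S30/Density/Bridge`), no Brauer–Nesbitt:

* `mul_mul_self`, `mul_adjugate_mul`, `det_mul_sub_one` : three identities for `2 × 2` matrices;
  `mul_adjugate_eq_zero_or` : two singular matrices with singular sum have a common kernel or a common
  range;
* `exists_det_sub_one_ne_zero` : if the image of `R : G →* M₂(k)` spans `M₂(k)` and `H` is a normal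
  subgroup with abelian quotient, some element of `H` does not have the eigenvalue `1` (otherwise `H`
  is the union of the stabiliser of a vector and the stabiliser of a linear form, hence one of them;
  the fixed vectors, resp. forms, are then a nonzero two-sided ideal of `M₂(k)`, so `H` acts
  trivially and the image of `R` is commutative);
* `exists_sigma` : the case `H = G_{ℚ(ζ_M)}` (the kernel of main's `chi M`);
* the density step: `τ = σ^a` and `σ = τ^j` on `ℚ(ζ_M) K(rbar)`, so `chi M τ = 1`, i.e. `ℓ ≡ 1 mod M`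
  (main's `chi_frob`), and a fixed vector of `rbar τ` would be fixed by `rbar σ = (rbar τ)^j`.
-/
import Mathlib
import Fermat.Prelude.Def_GaloisRep_Residual
import Fermat.Agent.S30.Density.Bridge
import Fermat.Agent.S48.B.Chain.GalChar
import Fermat.Agent.S53.Centralizer
import Fermat.Agent.S43.Rbar.Seam

set_option autoImplicit false
set_option linter.unusedSectionVars false

noncomputable section

namespace Fermat.Agent.S43.Rbar.NonEis

open Matrix

/-! ### Three identities for `2 × 2` matrices -/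

section identities

variable {k : Type*} [CommRing k]

/-- the polarised Cayley–Hamilton identity `A M A = tr(M A) A - det(A) adj(M)` -/
theorem mul_mul_self (A M : Matrix (Fin 2) (Fin 2) k) :
    A * M * A = (M * A).trace • A - A.det • adjugate M := by
  ext i j
  fin_cases i <;> fin_cases j <;>
    simp [Matrix.mul_apply, Fin.sum_univ_two, Matrix.trace_fin_two, Matrix.det_fin_two,
      Matrix.adjugate_fin_two] <;> ring

/-- `N adj(N₀) N = tr(N adj(N₀)) N - det(N) N₀` -/
theorem mul_adjugate_mul (N N₀ : Matrix (Fin 2) (Fin 2) k) :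
    N * adjugate N₀ * N = (N * adjugate N₀).trace • N - N.det • N₀ := by
  ext i j
  fin_cases i <;> fin_cases j <;>
    simp [Matrix.mul_apply, Fin.sum_univ_two, Matrix.trace_fin_two, Matrix.det_fin_two,
      Matrix.adjugate_fin_two] <;> ring

/-- `det((1 + N)(1 + N₀) - 1) = tr(N adj(N₀)) + det(N₀) det(1 + N) + det(N) (1 + tr(N₀))` -/
theorem det_mul_sub_one (N N₀ : Matrix (Fin 2) (Fin 2) k) :
    ((1 + N) * (1 + N₀) - 1).det =
      (N * adjugate N₀).trace + N₀.det * (1 + N).det + N.det * (1 + N₀.trace) := by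
  simp [Matrix.mul_apply, Fin.sum_univ_two, Matrix.trace_fin_two, Matrix.det_fin_two,
    Matrix.adjugate_fin_two]
  ring

/-- **two singular matrices whose sum is singular have a common kernel or a common range**, in the
form: `N adj(N₀) = 0` (`N` kills the kernel of `N₀`) or `adj(N₀) N = 0` (the range of `N` lies in
the range of `N₀`). -/
theorem mul_adjugate_eq_zero_or {k : Type*} [Field k] (N N₀ : Matrix (Fin 2) (Fin 2) k)
    (hN : N.det = 0) (hN₀ : N₀.det = 0) (hB : (N * adjugate N₀).trace = 0) :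
    N * adjugate N₀ = 0 ∨ adjugate N₀ * N = 0 := by
  have hA : (adjugate N₀).det = 0 := by
    rw [Matrix.det_adjugate, hN₀]
    simp
  have key : ∀ M : Matrix (Fin 2) (Fin 2) k, (N * adjugate N₀) * M * (adjugate N₀ * N) = 0 := by
    intro M
    have h1 : (N * adjugate N₀) * M * (adjugate N₀ * N) =
        N * (adjugate N₀ * M * adjugate N₀) * N := by
      simp only [Matrix.mul_assoc]
    have h2 : adjugate N₀ * M * adjugate N₀ = (M * adjugate N₀).trace • adjugate N₀ := by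
      rw [mul_mul_self, hA, zero_smul, sub_zero]
    rw [h1, h2, Matrix.mul_smul, Matrix.smul_mul, mul_adjugate_mul, hB, hN, zero_smul, zero_smul,
      sub_zero, smul_zero]
  by_contra hcon
  push Not at hcon
  obtain ⟨hX, hY⟩ := hcon
  obtain ⟨i, j, hij⟩ : ∃ i j, (N * adjugate N₀) i j ≠ 0 := by
    by_contra h
    push Not at h
    exact hX (Matrix.ext h)
  obtain ⟨a, b, hab⟩ : ∃ a b, (adjugate N₀ * N) a b ≠ 0 := by
    by_contra h
    push Not at h
    exact hY (Matrix.ext h)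
  have h2 := congrFun (congrFun (key (Matrix.single j a 1)) i) b
  rw [Matrix.mul_apply, Finset.sum_eq_single a] at h2
  · rw [Matrix.mul_single_apply_same, mul_one, Matrix.zero_apply] at h2
    exact (mul_ne_zero hij hab) h2
  · intro l _ hl
    rw [Matrix.mul_single_apply_of_ne (hbj := hl), zero_mul]
  · intro h
    exact absurd (Finset.mem_univ a) h

end identities

/-! ### A normal subgroup with abelian quotient contains an element without the eigenvalue `1` -/

section group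

variable {k : Type*} [Field k] {G : Type*} [Group G] (R : G →* Matrix (Fin 2) (Fin 2) k)

/-- a predicate on matrices that is linear and holds on the image of `R` holds everywhere, when the
image spans -/
theorem forall_of_span (hspan : Submodule.span k (Set.range R) = ⊤)
    (p : Matrix (Fin 2) (Fin 2) k → Prop) (h0 : p 0) (hadd : ∀ a b, p a → p b → p (a + b))
    (hsmul : ∀ (c : k) a, p a → p (c • a)) (hR : ∀ g, p (R g)) (M : Matrix (Fin 2) (Fin 2) k) :
    p M := by
  have hM : M ∈ Submodule.span k (Set.range R) := by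
    rw [hspan]
    exact Submodule.mem_top
  induction hM using Submodule.span_induction with
  | mem M h =>
    obtain ⟨g, rfl⟩ := h
    exact hR g
  | zero => exact h0
  | add a b _ _ ha hb => exact hadd a b ha hb
  | smul c a _ ha => exact hsmul c a ha

/-- a nonzero two-sided ideal of `M₂(k)` contains `1` -/
theorem one_mem_of_ideal (S : Submodule k (Matrix (Fin 2) (Fin 2) k))
    (hl : ∀ M, ∀ X ∈ S, M * X ∈ S) (hr : ∀ M, ∀ X ∈ S, X * M ∈ S)
    {A : Matrix (Fin 2) (Fin 2) k} (hA : A ∈ S) (hA0 : A ≠ 0) : (1 : Matrix (Fin 2) (Fin 2) k) ∈ S := by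
  obtain ⟨i, j, hij⟩ : ∃ i j, A i j ≠ 0 := by
    by_contra h
    push Not at h
    exact hA0 (Matrix.ext h)
  have h1 : ∀ l : Fin 2, Matrix.single l l (1 : k) ∈ S := by
    intro l
    have h2 := hr (Matrix.single j l 1) _ (hl (Matrix.single l i 1) A hA)
    rw [Matrix.single_mul_mul_single, one_mul, mul_one] at h2
    have h3 := S.smul_mem (A i j)⁻¹ h2
    rwa [Matrix.smul_single, smul_eq_mul, inv_mul_cancel₀ hij] at h3
  have h4 : (1 : Matrix (Fin 2) (Fin 2) k) = Matrix.single 0 0 1 + Matrix.single 1 1 1 := by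
    ext a b
    fin_cases a <;> fin_cases b <;> simp
  rw [h4]
  exact S.add_mem (h1 0) (h1 1)

/-- `M₂(k)` is not commutative -/
theorem exists_not_commute : ∃ a b : Matrix (Fin 2) (Fin 2) k, a * b ≠ b * a := by
  refine ⟨Matrix.single 0 1 1, Matrix.single 1 0 1, fun h => ?_⟩
  have h1 := congrFun (congrFun h 0) 0
  simp at h1

/-- **if the image of `R` spans `M₂(k)` and `H` is a normal subgroup with abelian quotient, some
element of `H` does not have the eigenvalue `1`** -/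
theorem exists_det_sub_one_ne_zero (hspan : Submodule.span k (Set.range R) = ⊤) (H : Subgroup G)
    [hHn : H.Normal] (hab : ∀ g g' : G, g * g' * g⁻¹ * g'⁻¹ ∈ H) :
    ∃ σ ∈ H, (R σ - 1).det ≠ 0 := by
  by_contra hcon
  push Not at hcon
  -- `R` is not trivial on `H`
  have hnt : ¬ ∀ σ ∈ H, R σ = 1 := by
    intro htriv
    have hcomm : ∀ g g', R g * R g' = R g' * R g := by
      intro g g'
      have h1 : g * g' = (g * g' * g⁻¹ * g'⁻¹) * (g' * g) := by group
      rw [← map_mul, ← map_mul, h1, map_mul, htriv _ (hab g g'), one_mul]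
    have hc1 : ∀ (M : Matrix (Fin 2) (Fin 2) k) g, M * R g = R g * M := by
      intro M
      refine forall_of_span R hspan (fun M => ∀ g, M * R g = R g * M) ?_ ?_ ?_ ?_ M
      · intro g
        rw [zero_mul, mul_zero]
      · intro a b ha hb g
        rw [add_mul, mul_add, ha g, hb g]
      · intro c a ha g
        rw [Matrix.smul_mul, Matrix.mul_smul, ha g]
      · intro g g'
        exact hcomm g g'
    have hc2 : ∀ M M' : Matrix (Fin 2) (Fin 2) k, M' * M = M * M' := by
      intro M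
      refine forall_of_span R hspan (fun M => ∀ M' : Matrix (Fin 2) (Fin 2) k, M' * M = M * M')
        ?_ ?_ ?_ ?_ M
      · intro M'
        rw [zero_mul, mul_zero]
      · intro a b ha hb M'
        rw [add_mul, mul_add, ha M', hb M']
      · intro c a ha M'
        rw [Matrix.smul_mul, Matrix.mul_smul, ha M']
      · intro g M'
        exact hc1 M' g
    obtain ⟨a, b, hne⟩ := exists_not_commute (k := k)
    exact hne (hc2 b a)
  push Not at hnt
  obtain ⟨σ₀, hσ₀, hne⟩ := hnt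
  have hN₀ : (R σ₀ - 1).det = 0 := hcon σ₀ hσ₀
  have hA₀ : adjugate (R σ₀ - 1) ≠ 0 := by
    intro h0
    have h1 := Matrix.adjugate_adjugate (R σ₀ - 1) (by simp)
    rw [h0, Fintype.card_fin, Nat.sub_self, pow_zero, one_smul] at h1
    have h2 : adjugate (0 : Matrix (Fin 2) (Fin 2) k) = 0 := by
      rw [Matrix.adjugate_fin_two]
      ext a b
      fin_cases a <;> fin_cases b <;> simp
    rw [h2] at h1
    exact hne (sub_eq_zero.mp h1.symm)
  -- the dichotomy for every element of `H`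
  have hdich : ∀ σ ∈ H, R σ * adjugate (R σ₀ - 1) = adjugate (R σ₀ - 1) ∨
      adjugate (R σ₀ - 1) * R σ = adjugate (R σ₀ - 1) := by
    intro σ hσ
    have hN : (R σ - 1).det = 0 := hcon σ hσ
    have hB : ((R σ - 1) * adjugate (R σ₀ - 1)).trace = 0 := by
      have h3 := det_mul_sub_one (R σ - 1) (R σ₀ - 1)
      have h4 : (1 + (R σ - 1)) * (1 + (R σ₀ - 1)) - 1 = R (σ * σ₀) - 1 := by
        rw [map_mul]
        congr 1
        congr 1 <;> abel
      rw [h4, hcon _ (H.mul_mem hσ hσ₀), hN, hN₀, zero_mul, zero_mul, add_zero, add_zero] at h3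
      exact h3.symm
    rcases mul_adjugate_eq_zero_or (R σ - 1) (R σ₀ - 1) hN hN₀ hB with h | h
    · left
      rwa [sub_mul, one_mul, sub_eq_zero] at h
    · right
      rwa [mul_sub, mul_one, sub_eq_zero] at h
  -- a group is not the union of two proper subgroups
  have hall : (∀ σ ∈ H, R σ * adjugate (R σ₀ - 1) = adjugate (R σ₀ - 1)) ∨
      (∀ σ ∈ H, adjugate (R σ₀ - 1) * R σ = adjugate (R σ₀ - 1)) := by
    by_contra h
    push Not at h
    obtain ⟨⟨x, hx, hxR⟩, ⟨y, hy, hyL⟩⟩ := h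
    have hxL := (hdich x hx).resolve_left hxR
    have hyR := (hdich y hy).resolve_right hyL
    rcases hdich (x * y) (H.mul_mem hx hy) with h | h
    · apply hxR
      rw [map_mul, Matrix.mul_assoc, hyR] at h
      exact h
    · apply hyL
      rw [map_mul, ← Matrix.mul_assoc, hxL] at h
      exact h
  apply hne
  rcases hall with hR | hL
  · -- the matrices fixed under left multiplication by `H` form a two-sided ideal
    let S : Submodule k (Matrix (Fin 2) (Fin 2) k) :=
      { carrier := {X | ∀ σ ∈ H, R σ * X = X}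
        zero_mem' := fun σ _ => mul_zero _
        add_mem' := fun {a b} ha hb σ hσ => by rw [mul_add, ha σ hσ, hb σ hσ]
        smul_mem' := fun c {a} ha σ hσ => by rw [Matrix.mul_smul, ha σ hσ] }
    have hSr : ∀ M, ∀ X ∈ S, X * M ∈ S := fun M X hX σ hσ => by
      rw [← Matrix.mul_assoc, hX σ hσ]
    have hSg : ∀ g, ∀ X ∈ S, R g * X ∈ S := fun g X hX σ hσ => by
      have h1 : σ * g = g * (g⁻¹ * σ * g) := by group
      have h2 : g⁻¹ * σ * g ∈ H := by
        have := hHn.conj_mem σ hσ g⁻¹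
        rwa [inv_inv] at this
      rw [← Matrix.mul_assoc, ← map_mul, h1, map_mul, Matrix.mul_assoc, hX _ h2]
    have hSl : ∀ M, ∀ X ∈ S, M * X ∈ S := fun M X hX => by
      refine forall_of_span R hspan (fun M => M * X ∈ S) ?_ ?_ ?_ ?_ M
      · rw [zero_mul]
        exact S.zero_mem
      · intro a b ha hb
        rw [add_mul]
        exact S.add_mem ha hb
      · intro c a ha
        rw [Matrix.smul_mul]
        exact S.smul_mem c ha
      · intro g
        exact hSg g X hX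
    have h1 := one_mem_of_ideal S hSl hSr (A := adjugate (R σ₀ - 1)) hR hA₀ σ₀ hσ₀
    rwa [mul_one] at h1
  · let S : Submodule k (Matrix (Fin 2) (Fin 2) k) :=
      { carrier := {X | ∀ σ ∈ H, X * R σ = X}
        zero_mem' := fun σ _ => zero_mul _
        add_mem' := fun {a b} ha hb σ hσ => by rw [add_mul, ha σ hσ, hb σ hσ]
        smul_mem' := fun c {a} ha σ hσ => by rw [Matrix.smul_mul, ha σ hσ] }
    have hSl : ∀ M, ∀ X ∈ S, M * X ∈ S := fun M X hX σ hσ => by
      rw [Matrix.mul_assoc, hX σ hσ]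
    have hSg : ∀ g, ∀ X ∈ S, X * R g ∈ S := fun g X hX σ hσ => by
      have h1 : g * σ = (g * σ * g⁻¹) * g := by group
      have h2 : g * σ * g⁻¹ ∈ H := hHn.conj_mem σ hσ g
      rw [Matrix.mul_assoc, ← map_mul, h1, map_mul, ← Matrix.mul_assoc, hX _ h2]
    have hSr : ∀ M, ∀ X ∈ S, X * M ∈ S := fun M X hX => by
      refine forall_of_span R hspan (fun M => X * M ∈ S) ?_ ?_ ?_ ?_ M
      · rw [mul_zero]
        exact S.zero_mem
      · intro a b ha hb
        rw [mul_add]
        exact S.add_mem ha hb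
      · intro c a ha
        rw [Matrix.mul_smul]
        exact S.smul_mem c ha
      · intro g
        exact hSg g X hX
    have h1 := one_mem_of_ideal S hSl hSr (A := adjugate (R σ₀ - 1)) hL hA₀ σ₀ hσ₀
    rwa [one_mul] at h1

end group

/-! ### The Galois side -/

section galois

open Fermat.Agent.S56.Cheb.Galois.CycChar (chi)
open Fermat.Agent.S48.B.Chain.GalChar (chi_frob chi_finiteLevel)

local notation "Qbar" => AlgebraicClosure ℚ
local notation "GQ" => (AlgebraicClosure ℚ ≃ₐ[ℚ] AlgebraicClosure ℚ)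

variable {k : Type} [Field k] (rbar : ResidualGaloisRep k)

theorem inv_mul_apply_eq (g h : GQ) (x : Qbar) (hx : h x = g x) : (g⁻¹ * h) x = x := by
  rw [AlgEquiv.mul_apply, hx]
  change (g⁻¹ * g) x = x
  rw [inv_mul_cancel]
  rfl

/-- a fixed vector of `f` is a fixed vector of its powers -/
theorem pow_apply_of_fixed {V : Type*} [AddCommGroup V] [Module k V] (f : Module.End k V) {v : V}
    (hv : f v = v) (j : ℕ) : (f ^ j) v = v := by
  induction j with
  | zero => rw [pow_zero, Module.End.one_apply]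
  | succ n ih => rw [pow_succ, Module.End.mul_apply, hv, ih]

/-- **an element of `G_{ℚ(ζ_M)}` without the eigenvalue `1`** -/
theorem exists_sigma (habs : rbar.IsAbsolutelyIrreducible) (M : ℕ) [NeZero M] :
    ∃ σ : GQ, chi M σ = 1 ∧ LinearMap.det (rbar.ρ σ - 1) ≠ 0 := by
  let b := Module.finBasisOfFinrankEq k rbar.V rbar.finrank_eq
  let e : Module.End k rbar.V ≃ₐ[k] Matrix (Fin 2) (Fin 2) k := LinearMap.toMatrixAlgEquiv b
  let R : GQ →* Matrix (Fin 2) (Fin 2) k := (e : Module.End k rbar.V →* Matrix (Fin 2) (Fin 2) k).comp rbar.ρ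
  have hR : ∀ g, R g = e (rbar.ρ g) := fun g => rfl
  have hspan : Submodule.span k (Set.range R) = ⊤ := by
    have h1 := Fermat.Agent.S53.Centralizer.span_range_eq_top_of_isAbsolutelyIrreducible rbar habs
    have h2 : Set.range R = (e.toLinearEquiv : Module.End k rbar.V →ₗ[k] Matrix (Fin 2) (Fin 2) k) ''
        Set.range rbar.ρ := by
      ext X
      constructor
      · rintro ⟨g, rfl⟩
        exact ⟨rbar.ρ g, ⟨g, rfl⟩, rfl⟩
      · rintro ⟨_, ⟨g, rfl⟩, rfl⟩
        exact ⟨g, rfl⟩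
    rw [h2, Submodule.span_image, h1, Submodule.map_top, LinearMap.range_eq_top]
    exact e.toLinearEquiv.surjective
  obtain ⟨σ, hσ, hdet⟩ := exists_det_sub_one_ne_zero R hspan (chi M).ker (fun g g' => by
    rw [MonoidHom.mem_ker, map_mul, map_mul, map_mul, map_inv, map_inv, mul_assoc, ← _root_.mul_inv_rev,
      mul_comm (chi M g') (chi M g), mul_inv_cancel])
  refine ⟨σ, MonoidHom.mem_ker.mp hσ, ?_⟩
  rw [← LinearMap.det_toMatrix b]
  have h3 : LinearMap.toMatrix b b (rbar.ρ σ - 1) = R σ - 1 := by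
    rw [hR, map_sub]
    congr 1
    exact LinearMap.toMatrix_one b
  rw [h3]
  exact hdet

/-- **A NON-EISENSTEIN PRIME `ℓ ≡ 1 mod M`**: for an absolutely irreducible residual representation
there is a prime `ℓ ∉ S`, `ℓ ≡ 1 mod M`, and a Frobenius element `τ` at `ℓ` such that `rbar τ` does
not have the eigenvalue `1`. -/
theorem exists_nonEisenstein_prime (habs : rbar.IsAbsolutelyIrreducible) (M : ℕ) [NeZero M]
    (S : Finset ℕ) :
    ∃ ℓ : ℕ, ℓ.Prime ∧ ℓ ∉ S ∧ (ℓ : ZMod M) = 1 ∧ ∃ (A : ValuationSubring Qbar) (τ : GQ),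
      A.LiesOverPrime ℓ ∧ A.IsFrobeniusAt τ ℓ ∧ LinearMap.det (rbar.ρ τ - 1) ≠ 0 := by
  obtain ⟨σ, hσ1, hσdet⟩ := exists_sigma rbar habs M
  obtain ⟨L₁, hL₁, h₁⟩ := chi_finiteLevel M
  obtain ⟨L₂, hL₂, h₂⟩ := rbar.factorsThroughFiniteLevel
  have hfd : FiniteDimensional ℚ ↥(L₁ ⊔ L₂) := IntermediateField.finiteDimensional_sup L₁ L₂
  obtain ⟨ℓ, hℓ, hℓS, A, τ, a, j, hA, hτ, hτσ, hσj⟩ :=
    Fermat.Agent.S30.Density.Bridge.frobenius_density_final (L₁ ⊔ L₂) σ (S ∪ M.primeFactors)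
  have hle₁ : L₁ ≤ L₁ ⊔ L₂ := le_sup_left
  have hle₂ : L₂ ≤ L₁ ⊔ L₂ := le_sup_right
  have hu : ∀ x ∈ L₁ ⊔ L₂, ((σ ^ a)⁻¹ * τ) x = x := fun x hx =>
    inv_mul_apply_eq (σ ^ a) τ x (hτσ x hx)
  have hu' : ∀ x ∈ L₁ ⊔ L₂, (((σ ^ a) ^ j)⁻¹ * σ) x = x := fun x hx =>
    inv_mul_apply_eq ((σ ^ a) ^ j) σ x (hσj x hx).symm
  have hchi : chi M τ = 1 := by
    have h3 := h₁ _ (fun x hx => hu x (hle₁ hx))
    rwa [map_mul, map_inv, map_pow, hσ1, one_pow, inv_one, one_mul] at h3
  have key : ∀ g h : GQ, rbar.ρ (g⁻¹ * h) = 1 → rbar.ρ h = rbar.ρ g := by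
    intro g h hgh
    calc rbar.ρ h = rbar.ρ g * rbar.ρ (g⁻¹ * h) := by
          rw [← map_mul, mul_inv_cancel_left]
      _ = rbar.ρ g := by rw [hgh, mul_one]
  have hrτ : rbar.ρ τ = rbar.ρ σ ^ a := by
    rw [key (σ ^ a) τ (h₂ _ (fun x hx => hu x (hle₂ hx))), map_pow]
  have hrσ : rbar.ρ σ = rbar.ρ τ ^ j := by
    rw [key ((σ ^ a) ^ j) σ (h₂ _ (fun x hx => hu' x (hle₂ hx))), map_pow, map_pow, hrτ]
  have hℓM : ¬ ℓ ∣ M := fun hdvd =>
    hℓS (Finset.mem_union_right _ (Nat.mem_primeFactors.mpr ⟨hℓ, hdvd, NeZero.ne M⟩))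
  refine ⟨ℓ, hℓ, fun h => hℓS (Finset.mem_union_left _ h), ?_, A, τ, hA, hτ, fun h0 => hσdet ?_⟩
  · rw [← chi_frob M hℓ hℓM A hA τ hτ, hchi, Units.val_one]
  · rw [LinearMap.det_eq_zero_iff_ker_ne_bot] at h0 ⊢
    obtain ⟨v, hv, hv0⟩ := (Submodule.ne_bot_iff _).mp h0
    refine (Submodule.ne_bot_iff _).mpr ⟨v, ?_, hv0⟩
    rw [LinearMap.mem_ker, LinearMap.sub_apply, Module.End.one_apply, sub_eq_zero] at hv ⊢
    rw [hrσ]
    exact pow_apply_of_fixed (rbar.ρ τ) hv j

/-! ### The trace forms -/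

/-- `det (f - 1) = 1 - tr f + det f` on a plane -/
theorem det_sub_one_eq {V : Type*} [AddCommGroup V] [Module k V] (h2 : Module.finrank k V = 2)
    (f : Module.End k V) :
    LinearMap.det (f - 1) = 1 - LinearMap.trace k V f + LinearMap.det f := by
  have hfin : Module.Finite k V := Module.finite_of_finrank_eq_succ h2
  let b := Module.finBasisOfFinrankEq k V h2
  rw [← LinearMap.det_toMatrix b, ← LinearMap.det_toMatrix b f,
    LinearMap.trace_eq_matrix_trace k b f, map_sub, LinearMap.toMatrix_one, Matrix.det_fin_two,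
    Matrix.det_fin_two, Matrix.trace_fin_two]
  simp only [Matrix.sub_apply, Matrix.one_apply_eq, Matrix.one_apply_ne, ne_eq, zero_ne_one,
    one_ne_zero, not_false_eq_true, sub_zero]
  ring

/-- `det (f - 1) = 1 - a + d` when the characteristic polynomial of `f` is `X² - a X + d` -/
theorem det_sub_one_of_charpoly {V : Type*} [AddCommGroup V] [Module k V] [Module.Finite k V]
    (h2 : Module.finrank k V = 2) (f : Module.End k V) {a d : k}
    (hf : LinearMap.charpoly f = Polynomial.X ^ 2 - Polynomial.C a * Polynomial.X + Polynomial.C d) :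
    LinearMap.det (f - 1) = 1 - a + d := by
  let b := Module.finBasisOfFinrankEq k V h2
  have h1 : (LinearMap.charpoly f).eval 1 = LinearMap.det (f - 1) := by
    rw [← LinearMap.charpoly_toMatrix f b, Matrix.eval_charpoly, ← LinearMap.det_toMatrix b, map_sub,
      LinearMap.toMatrix_one, map_one, ← neg_sub, Matrix.det_neg, Fintype.card_fin]
    ring
  rw [← h1, hf]
  simp

/-- **the non-Eisenstein prime, trace form**: `tr rbar(Frob_ℓ) ≠ 1 + det rbar(Frob_ℓ)` -/
theorem exists_nonEisenstein_prime_trace (habs : rbar.IsAbsolutelyIrreducible) (M : ℕ) [NeZero M]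
    (S : Finset ℕ) :
    ∃ ℓ : ℕ, ℓ.Prime ∧ ℓ ∉ S ∧ (ℓ : ZMod M) = 1 ∧ ∃ (A : ValuationSubring Qbar) (τ : GQ),
      A.LiesOverPrime ℓ ∧ A.IsFrobeniusAt τ ℓ ∧
        LinearMap.trace k rbar.V (rbar.ρ τ) ≠ 1 + LinearMap.det (rbar.ρ τ) := by
  obtain ⟨ℓ, hℓ, hℓS, hℓM, A, τ, hA, hτ, hdet⟩ := exists_nonEisenstein_prime rbar habs M S
  refine ⟨ℓ, hℓ, hℓS, hℓM, A, τ, hA, hτ, fun h => hdet ?_⟩
  rw [det_sub_one_eq rbar.finrank_eq, h]
  ring

/-- **the non-Eisenstein prime, characteristic polynomial form**: if the characteristic polynomial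
of `rbar(Frob_ℓ)` is `X² - a ℓ X + ℓ` for every prime `ℓ ∉ S₀`, there is `ℓ ∉ S ∪ S₀`, `ℓ ≡ 1 mod M`,
with `a ℓ ≠ 1 + ℓ` in `k`. -/
theorem exists_nonEisenstein_prime_charpoly (habs : rbar.IsAbsolutelyIrreducible) (M : ℕ)
    [NeZero M] (S₀ : Finset ℕ) (a : ℕ → k)
    (hfrob : ∀ ℓ : ℕ, ℓ.Prime → ℓ ∉ S₀ → ∀ A : ValuationSubring Qbar, A.LiesOverPrime ℓ →
      ∀ τ : GQ, A.IsFrobeniusAt τ ℓ →
        LinearMap.charpoly (rbar.ρ τ) =
          Polynomial.X ^ 2 - Polynomial.C (a ℓ) * Polynomial.X + Polynomial.C ((ℓ : ℕ) : k))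
    (S : Finset ℕ) :
    ∃ ℓ : ℕ, ℓ.Prime ∧ ℓ ∉ S ∧ ℓ ∉ S₀ ∧ (ℓ : ZMod M) = 1 ∧ a ℓ ≠ 1 + (ℓ : k) := by
  obtain ⟨ℓ, hℓ, hℓS, hℓM, A, τ, hA, hτ, hdet⟩ := exists_nonEisenstein_prime rbar habs M (S ∪ S₀)
  have hS : ℓ ∉ S := fun h => hℓS (Finset.mem_union_left _ h)
  have hS₀ : ℓ ∉ S₀ := fun h => hℓS (Finset.mem_union_right _ h)
  refine ⟨ℓ, hℓ, hS, hS₀, hℓM, fun h => hdet ?_⟩
  rw [det_sub_one_of_charpoly rbar.finrank_eq _ (hfrob ℓ hℓ hS₀ A hA τ hτ), h]
  ring

/-- **the non-Eisenstein prime of the Frey residual representation**: for every integral model `W`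
of the Frey curve there is a prime `ℓ ∉ S`, `ℓ ≠ p`, of good reduction for `W`, `ℓ ≡ 1 mod M`, with
`a_ℓ(W) ≠ 1 + ℓ` in `k`. -/
theorem exists_nonEisenstein_prime_frey (P : FreyPackage)
    (h : Fermat.Agent.S43.Rbar.Seam.IsFreyResidual P rbar) (W : WeierstrassCurve ℤ)
    (hW : W.IsIntegralModelOf P.freyCurve) (hΔ : W.Δ ≠ 0) (M : ℕ) [NeZero M] (S : Finset ℕ) :
    ∃ ℓ : ℕ, ℓ.Prime ∧ ℓ ∉ S ∧ ℓ ≠ P.p ∧ W.IsGoodPrimeFor ℓ ∧ (ℓ : ZMod M) = 1 ∧
      ((W.apOfModel ℓ : ℤ) : k) ≠ 1 + (ℓ : k) := by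
  have hgood : ∀ ℓ : ℕ, ℓ.Prime → ℓ ∉ insert P.p W.Δ.natAbs.primeFactors →
      W.IsGoodPrimeFor ℓ ∧ ℓ ≠ P.p := by
    intro ℓ hℓ hℓS
    rw [Finset.mem_insert, not_or] at hℓS
    refine ⟨fun hdvd => hℓS.2 ?_, hℓS.1⟩
    rw [Nat.mem_primeFactors]
    exact ⟨hℓ, Int.natCast_dvd.mp hdvd, fun h0 => hΔ (Int.natAbs_eq_zero.mp h0)⟩
  obtain ⟨ℓ, hℓ, hℓS, hℓS₀, hℓM, hne⟩ := exists_nonEisenstein_prime_charpoly rbar h.habs M
    (insert P.p W.Δ.natAbs.primeFactors) (fun ℓ => ((W.apOfModel ℓ : ℤ) : k))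
    (fun ℓ hℓ hℓS A hA τ hτ =>
      h.hfrob W hW ℓ hℓ (hgood ℓ hℓ hℓS).1 (hgood ℓ hℓ hℓS).2 A hA τ hτ) S
  exact ⟨ℓ, hℓ, hℓS, (hgood ℓ hℓ hℓS₀).2, (hgood ℓ hℓ hℓS₀).1, hℓM, hne⟩

end galois

end Fermat.Agent.S43.Rbar.NonEis

end
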